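import Fermat.Agent.S18.DefsMod

/-!
# S18, package RED, block R1 (helper3869): ring structure of the chart-integral series

Same statements as the frozen skeleton `Fermat/Agent/S18/Red.lean` (block R1), in the namespace
`Fermat.Agent.S18.RED3869`.  Imports only the frozen definition files.
-/

set_option autoImplicit false
set_option linter.unusedSectionVars false

noncomputable section

namespace Fermat.Agent.S18.RED3869

open ModularCurve AlgebraicCurve ModularCurve.IgusaScheme IntermediateField

/-! ### Generalities on the `A`-module structure of `ℚ̄((q))` and on `coeffMap` -/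

section General

variable {L : Type*} [Field L] (A : ValuationSubring L)

/-- the (coefficientwise) scalar action of `A` on `L((q))` is multiplication by a constant -/
theorem smul_eq_C_mul (a : A) (x : LaurentSeries L) :
    a • x = HahnSeries.C (a : L) * x := by
  rw [HahnSeries.C_mul_eq_smul]
  rfl

theorem coeffMap_C {R S : Type*} [CommRing R] [CommRing S] (f : R →+* S) (r : R) :
    coeffMap f (HahnSeries.C r) = HahnSeries.C (f r) := by
  rw [HahnSeries.C_apply, HahnSeries.C_apply, coeffMap_single]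

/-- a span of a multiplicatively closed set is multiplicatively closed -/
theorem mul_mem_span_of_mul_mem (T : Set (LaurentSeries L))
    (hT : ∀ x ∈ T, ∀ y ∈ T, x * y ∈ T) {u v : LaurentSeries L}
    (hu : u ∈ Submodule.span A T) (hv : v ∈ Submodule.span A T) :
    u * v ∈ Submodule.span A T := by
  induction hu using Submodule.span_induction with
  | mem x hx =>
    induction hv using Submodule.span_induction with
    | mem y hy => exact Submodule.subset_span (hT x hx y hy)
    | zero => rw [mul_zero]; exact Submodule.zero_mem _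
    | add y z _ _ hy hz => rw [mul_add]; exact Submodule.add_mem _ hy hz
    | smul a y _ hy =>
      rw [smul_eq_C_mul, mul_left_comm, ← smul_eq_C_mul]
      exact Submodule.smul_mem _ a hy
  | zero => rw [zero_mul]; exact Submodule.zero_mem _
  | add x y _ _ hx hy => rw [add_mul]; exact Submodule.add_mem _ hx hy
  | smul a x _ hx =>
    rw [smul_eq_C_mul, mul_assoc, ← smul_eq_C_mul]
    exact Submodule.smul_mem _ a hx

end General

section Unit

variable (R : Type*) [CommRing R]

/-- `j` is a unit of `R((q))` for every coefficient ring `R` -/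
theorem isUnit_jqModC : IsUnit (jqModC R) := by
  have h1 : IsUnit (HahnSeries.single (-1 : ℤ) (1 : R)) := by
    refine IsUnit.of_mul_eq_one (HahnSeries.single (1 : ℤ) (1 : R)) ?_
    rw [HahnSeries.single_mul_single]
    simp
  have h2 : IsUnit (jNum.map (Int.castRingHom R)) := by
    rw [PowerSeries.isUnit_iff_constantCoeff, ← PowerSeries.coeff_zero_eq_constantCoeff,
      PowerSeries.coeff_map, PowerSeries.coeff_zero_eq_constantCoeff, constantCoeff_jNum]
    simp
  exact h1.mul (h2.map (HahnSeries.ofPowerSeries ℤ R))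

end Unit

variable (ℓ : ℕ) [Fact ℓ.Prime] (A : ValuationSubring (AlgebraicClosure ℚ)) (N : ℕ) [NeZero N]

/-- the generating set of `chartSpan` -/
def chartGen (S : Set ↥(modularFunctionFieldFull N)) : Set (LaurentSeries (AlgebraicClosure ℚ)) :=
  Set.range fun x : chartAlg N ℓ S =>
    coeffEmb (AlgebraicClosure ℚ) ((x : ↥(modularFunctionFieldFull N)) : LaurentSeries ℚ)

theorem chartSpan_eq (S : Set ↥(modularFunctionFieldFull N)) :
    chartSpan ℓ A N S = Submodule.span A (chartGen ℓ N S) := rfl

theorem mem_chartGen_of_mem (S : Set ↥(modularFunctionFieldFull N))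
    {x : ↥(modularFunctionFieldFull N)} (hx : x ∈ chartAlg N ℓ S) :
    coeffEmb (AlgebraicClosure ℚ) (x : LaurentSeries ℚ) ∈ chartGen ℓ N S :=
  ⟨⟨x, hx⟩, rfl⟩

theorem chartGen_mul (S : Set ↥(modularFunctionFieldFull N)) :
    ∀ x ∈ chartGen ℓ N S, ∀ y ∈ chartGen ℓ N S, x * y ∈ chartGen ℓ N S := by
  rintro _ ⟨x, rfl⟩ _ ⟨y, rfl⟩
  refine ⟨x * y, ?_⟩
  show coeffEmb (AlgebraicClosure ℚ) (((x * y : chartAlg N ℓ S) : ↥(modularFunctionFieldFull N)) :
    LaurentSeries ℚ) = _
  rw [← map_mul]
  rfl

theorem one_mem_chartGen (S : Set ↥(modularFunctionFieldFull N)) :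
    (1 : LaurentSeries (AlgebraicClosure ℚ)) ∈ chartGen ℓ N S := by
  refine ⟨1, ?_⟩
  show coeffEmb (AlgebraicClosure ℚ) (((1 : chartAlg N ℓ S) : ↥(modularFunctionFieldFull N)) :
    LaurentSeries ℚ) = _
  rw [← map_one (coeffEmb (AlgebraicClosure ℚ))]
  rfl

/-! ### R1 -/

theorem isChartInt_add (S : Set ↥(modularFunctionFieldFull N)) {y z : LaurentSeries A}
    (hy : IsChartInt ℓ A N S y) (hz : IsChartInt ℓ A N S z) : IsChartInt ℓ A N S (y + z) := by
  unfold IsChartInt at *
  rw [map_add]
  exact Submodule.add_mem _ hy hz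

theorem isChartInt_mul (S : Set ↥(modularFunctionFieldFull N)) {y z : LaurentSeries A}
    (hy : IsChartInt ℓ A N S y) (hz : IsChartInt ℓ A N S z) : IsChartInt ℓ A N S (y * z) := by
  unfold IsChartInt at *
  rw [map_mul]
  rw [chartSpan_eq] at *
  exact mul_mem_span_of_mul_mem A _ (chartGen_mul ℓ N S) hy hz

theorem isChartInt_neg (S : Set ↥(modularFunctionFieldFull N)) {y : LaurentSeries A}
    (hy : IsChartInt ℓ A N S y) : IsChartInt ℓ A N S (-y) := by
  unfold IsChartInt at *
  rw [map_neg]
  exact Submodule.neg_mem _ hy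

theorem isChartInt_C (S : Set ↥(modularFunctionFieldFull N)) (a : A) :
    IsChartInt ℓ A N S (HahnSeries.C a) := by
  unfold IsChartInt
  rw [coeffMap_C, chartSpan_eq]
  have h := Submodule.smul_mem (Submodule.span A (chartGen ℓ N S)) a
    (Submodule.subset_span (one_mem_chartGen ℓ N S))
  rw [smul_eq_C_mul, mul_one] at h
  exact h

theorem isChartInt_mono {S S' : Set ↥(modularFunctionFieldFull N)} (h : S ⊆ S')
    {y : LaurentSeries A} (hy : IsChartInt ℓ A N S y) : IsChartInt ℓ A N S' y := by
  unfold IsChartInt at *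
  rw [chartSpan_eq] at *
  refine Submodule.span_mono ?_ hy
  rintro _ ⟨x, rfl⟩
  exact mem_chartGen_of_mem ℓ N S' (chartAlg_mono N ℓ h x.2)

theorem coeffMap_subtype_jqModC :
    coeffMap A.subtype (jqModC A) = coeffEmb (AlgebraicClosure ℚ) jq := by
  rw [coeffMap_jqModC, coeffEmb, ← jqModC_rat, coeffMap_jqModC]

theorem isIntFin_j : IsIntFin ℓ A N (jqModC A) := by
  show coeffMap A.subtype (jqModC A) ∈ chartSpan ℓ A N {jFull N}
  rw [coeffMap_subtype_jqModC, chartSpan_eq]
  exact Submodule.subset_span
    (mem_chartGen_of_mem ℓ N {jFull N} (subset_chartAlg N ℓ _ (Set.mem_singleton _)))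

theorem jinvA_mul_j : jinvA A * jqModC A = 1 :=
  Ring.inverse_mul_cancel _ (isUnit_jqModC A)

theorem coeffMap_subtype_jinvA :
    coeffMap A.subtype (jinvA A) = coeffEmb (AlgebraicClosure ℚ) (jq⁻¹) := by
  have h1 : coeffMap A.subtype (jinvA A) * coeffEmb (AlgebraicClosure ℚ) jq = 1 := by
    rw [← coeffMap_subtype_jqModC, ← map_mul, jinvA_mul_j, map_one]
  have h2 : coeffEmb (AlgebraicClosure ℚ) (jq⁻¹) * coeffEmb (AlgebraicClosure ℚ) jq = 1 := by
    rw [← map_mul, inv_mul_cancel₀ jq_ne_zero, map_one]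
  have h3 : coeffEmb (AlgebraicClosure ℚ) jq ≠ 0 := by
    intro h0
    rw [h0, mul_zero] at h2
    exact zero_ne_one h2
  exact mul_right_cancel₀ h3 (h1.trans h2.symm)

theorem isIntInf_jinv : IsIntInf ℓ A N (jinvA A) := by
  show coeffMap A.subtype (jinvA A) ∈ chartSpan ℓ A N {(jFull N)⁻¹}
  rw [coeffMap_subtype_jinvA, chartSpan_eq]
  exact Submodule.subset_span
    (mem_chartGen_of_mem ℓ N {(jFull N)⁻¹} (subset_chartAlg N ℓ _ (Set.mem_singleton _)))

end Fermat.Agent.S18.RED3869
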