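import Fermat.Agent.S18.RED3869.DescAbs
import Fermat.Agent.S18.T7102.NormField

/-!
# S18 / T, Case B assembly: the field form of the norm criterion for a tower of intermediate fields
(helper3869; Mathlib + helper7102's `T7102/NormField.lean`)
-/

set_option autoImplicit false

noncomputable section

namespace Fermat.Agent.S18.RED3869

open IntermediateField

section

variable {k Ω : Type*} [Field k] [IsAlgClosed k] [Field Ω] [Algebra k Ω]
variable {F₁ F₂ : IntermediateField k Ω}

/-- Norm criterion (helper7102's `mem_of_isIntegral_of_norm_mem`) for `F₁ ≤ F₂ ⊆ Ω`, the upper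
field being `IntermediateField.extendScalars`, integrality of the elements of `F₂` stated in `Ω`. -/
theorem mem_of_isIntegral_of_norm_mem_extendScalars (h : F₁ ≤ F₂) (x : ↥F₁)
    [FiniteDimensional k⟮x⟯ ↥F₁] [Algebra.IsSeparable k⟮x⟯ ↥F₁]
    (hfin : Module.finrank ↥F₁ ↥(IntermediateField.extendScalars h) ≠ 0)
    [Algebra.IsSeparable ↥F₁ ↥(IntermediateField.extendScalars h)]
    (B : Subalgebra k ↥F₁) (hxB : x ∈ B)
    (hnorm : ∀ g : ↥(IntermediateField.extendScalars h),
      IsIntegral (Algebra.adjoin k {(x : Ω)}) (g : Ω) → Algebra.norm ↥F₁ g ∈ B) :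
    ∀ f : ↥F₁, IsIntegral (Algebra.adjoin k {x}) f → f ∈ B := by
  have _i1 : Module.Free ↥F₁ ↥(IntermediateField.extendScalars h) :=
    Module.Free.of_divisionRing _ _
  have _i2 : FiniteDimensional ↥F₁ ↥(IntermediateField.extendScalars h) :=
    Module.finite_of_finrank_pos (Nat.pos_of_ne_zero hfin)
  refine T7102.mem_of_isIntegral_of_norm_mem (k := k) (F₁ := ↥F₁)
    (F₂ := ↥(IntermediateField.extendScalars h)) x B hxB ?_
  intro g hg
  refine hnorm g ?_
  let φ : ↥(IntermediateField.extendScalars h) →ₐ[k] Ω :=
    { toFun := fun g => g.1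
      map_one' := rfl
      map_mul' := fun _ _ => rfl
      map_zero' := rfl
      map_add' := fun _ _ => rfl
      commutes' := fun _ => rfl }
  exact (isIntegral_adjoin_map_iff φ Subtype.val_injective
    (algebraMap ↥F₁ ↥(IntermediateField.extendScalars h) x) g).mpr hg

omit [IsAlgClosed k] in
/-- integrality over `k[x]` inside an intermediate field and inside the ambient field -/
theorem isIntegral_adjoin_coe_iff (F : IntermediateField k Ω) (x g : ↥F) :
    IsIntegral (Algebra.adjoin k {(x : Ω)}) (g : Ω) ↔ IsIntegral (Algebra.adjoin k {x}) g :=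
  isIntegral_adjoin_map_iff F.val Subtype.val_injective x g

end

end Fermat.Agent.S18.RED3869
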