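import Fermat.Agent.S18.RED3869.E2
import Fermat.Agent.S18.RED3869.DescAbs2
import Fermat.Agent.S18.Red

/-!
# S18 / Theorem T, CASE B assembly: level descent of `thmT_fin` (helper3869)

`N ∣ M`, `ℓ ∤ M`.  If the reduced chart `j ≠ ∞` of level `M` is integrally closed (conclusion of
`thmT_fin` at level `M`), then so is the reduced chart of level `N` (`thmT_fin_of_dvd`).
With `M = r N` this is CASE B of Theorem T (`notes/S18_T_design.md` §G, BOARD v3 §T.3).

Ingredients: (E2) `exists_isIntFin_norm` (`E2.lean`), the field form of the norm criterion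
(helper7102 `T7102/NormField.lean`, verbatim copy), R5 at level `N` (frozen `Red.lean`),
separability of `Ft(M)/Ft(N)` (piece 3 of RED), `k` algebraically closed.
-/

set_option autoImplicit false
set_option linter.unusedSectionVars false

noncomputable section

namespace Fermat.Agent.S18.RED3869

open ModularCurve AlgebraicCurve ModularCurve.IgusaScheme Fermat.Agent.S18

local notation "Q̄" => AlgebraicClosure ℚ

section

variable {N M : ℕ} [NeZero N] [NeZero M] {ℓ : ℕ} [Fact ℓ.Prime] {A : ValuationSubring Q̄}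

/-- the generic fibre of a chart-integral series lies in `ℚ̄(X₀(N))` -/
theorem gen_mem_of_isChartInt (S : Set ↥(modularFunctionFieldFull N)) {y : LaurentSeries A}
    (hy : IsChartInt ℓ A N S y) : coeffMap A.subtype y ∈ modularFunctionFieldBar N := by
  have key : ∀ z ∈ chartSpan ℓ A N S, z ∈ modularFunctionFieldBar N := by
    intro z hz
    induction hz using Submodule.span_induction with
    | mem w hw =>
      obtain ⟨e, rfl⟩ := hw
      exact coeffEmb_mem_laurentBaseChange _ (e : ↥(modularFunctionFieldFull N)).2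
    | zero => exact zero_mem _
    | add u v _ _ hu hv => exact add_mem hu hv
    | smul a u _ hu =>
      rw [smul_eq_C_mul]
      exact mul_mem (C_mem _ _) hu
  exact key _ hy

set_option synthInstance.maxHeartbeats 200000 in
set_option maxHeartbeats 1600000 in
/-- the reduced chart `j ≠ ∞` of level `N`, as a `k`-subalgebra of `Ft A N` -/
def redChartFin (ℓ : ℕ) [Fact ℓ.Prime] (A : ValuationSubring Q̄) (N : ℕ) [NeZero N] :
    Subalgebra (IsLocalRing.ResidueField A) ↥(Ft A N) where
  carrier := {f | ∃ y : LaurentSeries A, IsIntFin ℓ A N y ∧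
    coeffMap (IsLocalRing.residue A) y = (f : LaurentSeries (IsLocalRing.ResidueField A))}
  mul_mem' := by
    rintro a b ⟨y, hy, hya⟩ ⟨z, hz, hzb⟩
    exact ⟨y * z, isChartInt_mul ℓ A N _ hy hz, by rw [map_mul, hya, hzb]; rfl⟩
  add_mem' := by
    rintro a b ⟨y, hy, hya⟩ ⟨z, hz, hzb⟩
    exact ⟨y + z, isChartInt_add ℓ A N _ hy hz, by rw [map_add, hya, hzb]; rfl⟩
  algebraMap_mem' := by
    intro c
    obtain ⟨a, rfl⟩ := IsLocalRing.residue_surjective c
    refine ⟨HahnSeries.C a, isChartInt_C ℓ A N _ a, ?_⟩
    rw [coeffMap_C]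
    show HahnSeries.C (IsLocalRing.residue A a) =
      algebraMap (IsLocalRing.ResidueField A) (LaurentSeries (IsLocalRing.ResidueField A))
        (IsLocalRing.residue A a)
    rw [algebraMap_laurentSeries_eq_single, HahnSeries.C_apply]

set_option synthInstance.maxHeartbeats 200000 in
set_option maxHeartbeats 1600000 in
theorem mem_redChartFin {f : ↥(Ft A N)} :
    f ∈ redChartFin ℓ A N ↔ ∃ y : LaurentSeries A, IsIntFin ℓ A N y ∧
      coeffMap (IsLocalRing.residue A) y = (f : LaurentSeries (IsLocalRing.ResidueField A)) :=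
  Iff.rfl

set_option synthInstance.maxHeartbeats 200000 in
set_option maxHeartbeats 1600000 in
theorem jt_mem_redChartFin : jt A N ∈ redChartFin ℓ A N :=
  ⟨jqModC A, isIntFin_j ℓ A N, coeffMap_jqModC _⟩

set_option synthInstance.maxHeartbeats 200000 in
set_option maxHeartbeats 1600000 in
/-- **CASE B of Theorem T (level descent).**  `N ∣ M`, `ℓ ∤ M`: if every element of `Ft A M`
integral over `k[j̄]` is the reduction of a chart-integral series of level `M`, the same holds at
level `N`. -/
theorem thmT_fin_of_dvd (hNM : N ∣ M) (hℓM : ¬ ℓ ∣ M) (hA : A.LiesOverPrime ℓ)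
    (hT : ∀ f : Ft A M, IsIntegral (Algebra.adjoin (IsLocalRing.ResidueField A) {jt A M}) f →
      ∃ y : LaurentSeries A, IsIntFin ℓ A M y ∧
        coeffMap (IsLocalRing.residue A) y = (f : LaurentSeries (IsLocalRing.ResidueField A)))
    (f : Ft A N) (hf : IsIntegral (Algebra.adjoin (IsLocalRing.ResidueField A) {jt A N}) f) :
    ∃ y : LaurentSeries A, IsIntFin ℓ A N y ∧
      coeffMap (IsLocalRing.residue A) y = (f : LaurentSeries (IsLocalRing.ResidueField A)) := by
  have hℓN : ¬ ℓ ∣ N := fun h' => hℓM (h'.trans hNM)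
  have _i0 : IsAlgClosed (IsLocalRing.ResidueField A) := isAlgClosed_residueField_valuationSubring A
  have _i1 := finiteDimensional_Ft hℓN hA
  have _i2 := isSeparable_Ft hℓN hA
  have hle := full_degeneracyC_le (IsLocalRing.ResidueField A) hNM
  have _i4 : Algebra.IsSeparable ↥(Ft A N) ↥(IntermediateField.extendScalars hle) := by
    have _i5 := isSeparable_full M (IsLocalRing.ResidueField A) (natCast_residue_ne_zero A hA hℓM)
    exact isSeparable_extendScalars_of_le (KjC_le_full N _) hle (KjC_le_full M _)
  refine mem_of_isIntegral_of_norm_mem_extendScalars hle (jt A N)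
    (finrank_full_ne_zero A hNM hℓM hA) (redChartFin ℓ A N) jt_mem_redChartFin ?_ f hf
  intro g hg
  -- `g` as an element of `Ft A M`, integral over `k[j̄]`
  have hg' : IsIntegral (Algebra.adjoin (IsLocalRing.ResidueField A) {jt A M})
      (⟨g.1, (IntermediateField.mem_extendScalars hle).mp g.2⟩ : Ft A M) :=
    (isIntegral_adjoin_coe_iff (Ft A M) (jt A M)
      (⟨g.1, (IntermediateField.mem_extendScalars hle).mp g.2⟩ : Ft A M)).mp hg
  obtain ⟨y, hy, hyg⟩ := hT _ hg'
  obtain ⟨y', hy', -, hy'w⟩ := exists_isIntFin_norm hNM hℓM hA y hy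
    ⟨coeffMap A.subtype y, (IntermediateField.mem_extendScalars _).mpr
      (gen_mem_of_isChartInt _ hy)⟩ rfl g hyg.symm
  exact ⟨y', hy', hy'w⟩

end

end Fermat.Agent.S18.RED3869
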