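import Mathlib

/-!
# S18 / RED, piece 6 (NORM), abstract core (helper3869; Mathlib only)

`F₁ ≤ F₂ ⊆ E` and `G₁ ≤ G₂ ⊆ e` two towers of fields, `R : E → e → Prop` a "reduction relation"
(compatible with `+`, `*`, integers, and functional).  Assume
* (Hind)  lifts of `G₁`-independent families are `F₁`-independent;
* (Hcoef) if `∑ c i * b i` (`c i ∈ F₁`, the `b i` lifts of a `G₁`-independent family) has a
  reduction, then every `c i` has a reduction in `G₁`;
* (H3) every element of `G₂` is the reduction of an element of `F₂`;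
* (H4) `[F₂ : F₁] = [G₂ : G₁] ≠ 0`.
Then `R` commutes with norm and trace of `F₂/F₁`, `G₂/G₁`.
-/

set_option autoImplicit false
set_option linter.unusedSectionVars false

noncomputable section

namespace Fermat.Agent.S18.RED3869

section Abs

variable {K E k e : Type*} [Field K] [Field E] [Algebra K E] [Field k] [Field e] [Algebra k e]
variable {F₁ F₂ : IntermediateField K E} {G₁ G₂ : IntermediateField k e}

theorem coe_smul_extendScalars (h : F₁ ≤ F₂) (c : ↥F₁) (y : ↥(IntermediateField.extendScalars h)) :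
    ((c • y : ↥(IntermediateField.extendScalars h)) : E) = (c : E) * (y : E) := rfl

theorem coe_sum_smul_extendScalars (h : F₁ ≤ F₂) {ι : Type*} (s : Finset ι) (c : ι → ↥F₁)
    (y : ι → ↥(IntermediateField.extendScalars h)) :
    ((∑ i ∈ s, c i • y i : ↥(IntermediateField.extendScalars h)) : E) =
      ∑ i ∈ s, (c i : E) * (y i : E) := by
  rw [AddSubmonoidClass.coe_finsetSum]
  rfl

/-- independence of a basis, in terms of the ambient field -/
theorem basis_indep_extendScalars (h : F₁ ≤ F₂) {ι : Type*} [Fintype ι]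
    (b : Module.Basis ι ↥F₁ ↥(IntermediateField.extendScalars h)) (v : ι → E)
    (hv : ∀ i, v i ∈ F₁) (hsum : ∑ i, v i * ((b i : ↥(IntermediateField.extendScalars h)) : E) = 0) :
    ∀ i, v i = 0 := by
  intro i
  have h1 := Fintype.linearIndependent_iff.mp b.linearIndependent (fun i => ⟨v i, hv i⟩) (by
    apply Subtype.ext
    rw [coe_sum_smul_extendScalars, hsum]
    rfl) i
  exact congrArg Subtype.val h1

theorem leftMul_col_extendScalars (h : F₁ ≤ F₂) {ι : Type*} [Fintype ι] [DecidableEq ι]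
    (b : Module.Basis ι ↥F₁ ↥(IntermediateField.extendScalars h))
    (x : ↥(IntermediateField.extendScalars h)) (j : ι) :
    (x : E) * ((b j : ↥(IntermediateField.extendScalars h)) : E) =
      ∑ i, ((Algebra.leftMulMatrix b x i j : ↥F₁) : E) *
        ((b i : ↥(IntermediateField.extendScalars h)) : E) := by
  have h1 : x * b j = ∑ i, Algebra.leftMulMatrix b x i j • b i := by
    conv_lhs => rw [← b.sum_repr (x * b j)]
    exact Finset.sum_congr rfl fun i _ => by rw [Algebra.leftMulMatrix_eq_repr_mul]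
  have h2 := congrArg (Subtype.val : ↥(IntermediateField.extendScalars h) → E) h1
  rw [coe_sum_smul_extendScalars] at h2
  exact h2

variable (R : E → e → Prop)

theorem rel_sum (hadd : ∀ x x' w w', R x w → R x' w' → R (x + x') (w + w'))
    (hint : ∀ n : ℤ, R (n : E) (n : e))
    {ι : Type*} (s : Finset ι) (x : ι → E) (w : ι → e)
    (h : ∀ i ∈ s, R (x i) (w i)) : R (∑ i ∈ s, x i) (∑ i ∈ s, w i) := by
  classical
  induction s using Finset.induction_on with
  | empty => simpa using hint 0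
  | insert a s ha ih =>
    rw [Finset.sum_insert ha, Finset.sum_insert ha]
    exact hadd _ _ _ _ (h a (Finset.mem_insert_self a s))
      (ih fun i hi => h i (Finset.mem_insert_of_mem hi))

theorem rel_prod (hmul : ∀ x x' w w', R x w → R x' w' → R (x * x') (w * w'))
    (hint : ∀ n : ℤ, R (n : E) (n : e))
    {ι : Type*} (s : Finset ι) (x : ι → E) (w : ι → e)
    (h : ∀ i ∈ s, R (x i) (w i)) : R (∏ i ∈ s, x i) (∏ i ∈ s, w i) := by
  classical
  induction s using Finset.induction_on with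
  | empty => simpa using hint 1
  | insert a s ha ih =>
    rw [Finset.prod_insert ha, Finset.prod_insert ha]
    exact hmul _ _ _ _ (h a (Finset.mem_insert_self a s))
      (ih fun i hi => h i (Finset.mem_insert_of_mem hi))

/-- A lifted pair of bases. -/
theorem exists_lifted_bases_abs (hF : F₁ ≤ F₂) (hG : G₁ ≤ G₂)
    (Hind : ∀ (n : ℕ) (c b : Fin n → E) (wb : Fin n → e), (∀ i, c i ∈ F₁) →
      (∀ i, R (b i) (wb i)) →
      (∀ v : Fin n → e, (∀ i, v i ∈ G₁) → ∑ i, v i * wb i = 0 → ∀ i, v i = 0) →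
      ∑ i, c i * b i = 0 → ∀ i, c i = 0)
    (H3 : ∀ w : e, w ∈ G₂ → ∃ x : E, x ∈ F₂ ∧ R x w)
    (H4 : Module.finrank ↥F₁ ↥(IntermediateField.extendScalars hF) =
      Module.finrank ↥G₁ ↥(IntermediateField.extendScalars hG))
    (H5 : Module.finrank ↥G₁ ↥(IntermediateField.extendScalars hG) ≠ 0) :
    ∃ (n : ℕ) (bb : Module.Basis (Fin n) ↥F₁ ↥(IntermediateField.extendScalars hF))
      (bt : Module.Basis (Fin n) ↥G₁ ↥(IntermediateField.extendScalars hG)),
      ∀ i, R ((bb i : ↥(IntermediateField.extendScalars hF)) : E)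
        ((bt i : ↥(IntermediateField.extendScalars hG)) : e) := by
  classical
  have hfin : Module.Finite ↥G₁ ↥(IntermediateField.extendScalars hG) :=
    Module.finite_of_finrank_pos (Nat.pos_of_ne_zero H5)
  have hfree : Module.Free ↥G₁ ↥(IntermediateField.extendScalars hG) :=
    Module.Free.of_divisionRing _ _
  set n := Module.finrank ↥G₁ ↥(IntermediateField.extendScalars hG) with hn
  let bt : Module.Basis (Fin n) ↥G₁ ↥(IntermediateField.extendScalars hG) :=
    Module.finBasis ↥G₁ ↥(IntermediateField.extendScalars hG)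
  have hex : ∀ i, ∃ x : E, x ∈ F₂ ∧ R x ((bt i : ↥(IntermediateField.extendScalars hG)) : e) :=
    fun i => H3 _ ((IntermediateField.mem_extendScalars hG).mp (bt i).2)
  choose b hbmem hbred using hex
  let b' : Fin n → ↥(IntermediateField.extendScalars hF) := fun i =>
    ⟨b i, (IntermediateField.mem_extendScalars hF).mpr (hbmem i)⟩
  have hli : LinearIndependent ↥F₁ b' := by
    rw [Fintype.linearIndependent_iff]
    intro g hg i
    have hsum : ∑ i, (g i : E) * b i = 0 := by
      have h1 := congrArg (Subtype.val : ↥(IntermediateField.extendScalars hF) → E) hg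
      rw [coe_sum_smul_extendScalars] at h1
      exact h1
    exact Subtype.ext (Hind n (fun i => (g i : E)) b
      (fun i => ((bt i : ↥(IntermediateField.extendScalars hG)) : e)) (fun i => (g i).2) hbred
      (basis_indep_extendScalars hG bt) hsum i)
  have hne : Nonempty (Fin n) := Fin.pos_iff_nonempty.mp (Nat.pos_of_ne_zero H5)
  refine ⟨n, basisOfLinearIndependentOfCardEqFinrank hli (by rw [Fintype.card_fin, H4]), bt, ?_⟩
  intro i
  rw [coe_basisOfLinearIndependentOfCardEqFinrank]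
  exact hbred i

/-- The matrices of multiplication by `x` and by its reduction `w` in a lifted pair of bases. -/
theorem rel_leftMulMatrix (hF : F₁ ≤ F₂) (hG : G₁ ≤ G₂)
    (hadd : ∀ x x' w w', R x w → R x' w' → R (x + x') (w + w'))
    (hmul : ∀ x x' w w', R x w → R x' w' → R (x * x') (w * w'))
    (hint : ∀ n : ℤ, R (n : E) (n : e))
    (huniq : ∀ x w w', R x w → R x w' → w = w')
    (Hcoef : ∀ (n : ℕ) (c b : Fin n → E) (wb : Fin n → e), (∀ i, c i ∈ F₁) →
      (∀ i, R (b i) (wb i)) →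
      (∀ v : Fin n → e, (∀ i, v i ∈ G₁) → ∑ i, v i * wb i = 0 → ∀ i, v i = 0) →
      ∀ wz : e, R (∑ i, c i * b i) wz → ∀ i, ∃ v : e, v ∈ G₁ ∧ R (c i) v)
    {n : ℕ} (bb : Module.Basis (Fin n) ↥F₁ ↥(IntermediateField.extendScalars hF))
    (bt : Module.Basis (Fin n) ↥G₁ ↥(IntermediateField.extendScalars hG))
    (hbt : ∀ i, R ((bb i : ↥(IntermediateField.extendScalars hF)) : E)
        ((bt i : ↥(IntermediateField.extendScalars hG)) : e))
    (x : ↥(IntermediateField.extendScalars hF)) (w : ↥(IntermediateField.extendScalars hG))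
    (h : R (x : E) (w : e)) (i j : Fin n) :
    R ((Algebra.leftMulMatrix bb x i j : ↥F₁) : E) ((Algebra.leftMulMatrix bt w i j : ↥G₁) : e) := by
  classical
  have hind := basis_indep_extendScalars hG bt
  have hx := leftMul_col_extendScalars hF bb x j
  have hw := leftMul_col_extendScalars hG bt w j
  have hred : R (∑ i, ((Algebra.leftMulMatrix bb x i j : ↥F₁) : E) *
      ((bb i : ↥(IntermediateField.extendScalars hF)) : E))
      ((w : e) * ((bt j : ↥(IntermediateField.extendScalars hG)) : e)) := by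
    rw [← hx]
    exact hmul _ _ _ _ h (hbt j)
  have hv := Hcoef n (fun i => ((Algebra.leftMulMatrix bb x i j : ↥F₁) : E))
    (fun i => ((bb i : ↥(IntermediateField.extendScalars hF)) : E))
    (fun i => ((bt i : ↥(IntermediateField.extendScalars hG)) : e))
    (fun i => (Algebra.leftMulMatrix bb x i j).2) hbt hind _ hred
  choose v hvmem hvred using hv
  have hred' : R (∑ i, ((Algebra.leftMulMatrix bb x i j : ↥F₁) : E) *
      ((bb i : ↥(IntermediateField.extendScalars hF)) : E))
      (∑ i, v i * ((bt i : ↥(IntermediateField.extendScalars hG)) : e)) :=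
    rel_sum R hadd hint _ _ _ fun i _ => hmul _ _ _ _ (hvred i) (hbt i)
  have huq := huniq _ _ _ hred hred'
  rw [hw] at huq
  have hzero : ∀ i, ((Algebra.leftMulMatrix bt w i j : ↥G₁) : e) - v i = 0 := by
    refine hind _ (fun i => sub_mem (Algebra.leftMulMatrix bt w i j).2 (hvmem i)) ?_
    simp only [sub_mul, Finset.sum_sub_distrib]
    rw [huq, sub_self]
  rw [sub_eq_zero.mp (hzero i)]
  exact hvred i

/-- **Norm compatibility**, abstract version. -/
theorem rel_norm (hF : F₁ ≤ F₂) (hG : G₁ ≤ G₂)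
    (hadd : ∀ x x' w w', R x w → R x' w' → R (x + x') (w + w'))
    (hmul : ∀ x x' w w', R x w → R x' w' → R (x * x') (w * w'))
    (hint : ∀ n : ℤ, R (n : E) (n : e))
    (huniq : ∀ x w w', R x w → R x w' → w = w')
    (Hind : ∀ (n : ℕ) (c b : Fin n → E) (wb : Fin n → e), (∀ i, c i ∈ F₁) →
      (∀ i, R (b i) (wb i)) →
      (∀ v : Fin n → e, (∀ i, v i ∈ G₁) → ∑ i, v i * wb i = 0 → ∀ i, v i = 0) →
      ∑ i, c i * b i = 0 → ∀ i, c i = 0)
    (Hcoef : ∀ (n : ℕ) (c b : Fin n → E) (wb : Fin n → e), (∀ i, c i ∈ F₁) →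
      (∀ i, R (b i) (wb i)) →
      (∀ v : Fin n → e, (∀ i, v i ∈ G₁) → ∑ i, v i * wb i = 0 → ∀ i, v i = 0) →
      ∀ wz : e, R (∑ i, c i * b i) wz → ∀ i, ∃ v : e, v ∈ G₁ ∧ R (c i) v)
    (H3 : ∀ w : e, w ∈ G₂ → ∃ x : E, x ∈ F₂ ∧ R x w)
    (H4 : Module.finrank ↥F₁ ↥(IntermediateField.extendScalars hF) =
      Module.finrank ↥G₁ ↥(IntermediateField.extendScalars hG))
    (H5 : Module.finrank ↥G₁ ↥(IntermediateField.extendScalars hG) ≠ 0)
    (x : ↥(IntermediateField.extendScalars hF)) (w : ↥(IntermediateField.extendScalars hG))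
    (h : R (x : E) (w : e)) :
    R ((Algebra.norm ↥F₁ x : ↥F₁) : E) ((Algebra.norm ↥G₁ w : ↥G₁) : e) := by
  classical
  obtain ⟨n, bb, bt, hbt⟩ := exists_lifted_bases_abs R hF hG Hind H3 H4 H5
  have hM := rel_leftMulMatrix R hF hG hadd hmul hint huniq Hcoef bb bt hbt x w h
  rw [Algebra.norm_eq_matrix_det bb x, Algebra.norm_eq_matrix_det bt w, Matrix.det_apply',
    Matrix.det_apply']
  simp only [AddSubmonoidClass.coe_finsetSum, MulMemClass.coe_mul, SubmonoidClass.coe_finsetProd]
  refine rel_sum R hadd hint _ _ _ fun σ _ => ?_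
  refine hmul _ _ _ _ ?_ (rel_prod R hmul hint _ _ _ fun i _ => hM _ _)
  have h1 : (((((Equiv.Perm.sign σ : ℤˣ) : ℤ) : ↥F₁)) : E) = (((Equiv.Perm.sign σ : ℤˣ) : ℤ) : E) := by
    push_cast
    rfl
  have h2 : (((((Equiv.Perm.sign σ : ℤˣ) : ℤ) : ↥G₁)) : e) = (((Equiv.Perm.sign σ : ℤˣ) : ℤ) : e) := by
    push_cast
    rfl
  rw [h1, h2]
  exact hint _

/-- **Trace compatibility**, abstract version. -/
theorem rel_trace (hF : F₁ ≤ F₂) (hG : G₁ ≤ G₂)
    (hadd : ∀ x x' w w', R x w → R x' w' → R (x + x') (w + w'))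
    (hmul : ∀ x x' w w', R x w → R x' w' → R (x * x') (w * w'))
    (hint : ∀ n : ℤ, R (n : E) (n : e))
    (huniq : ∀ x w w', R x w → R x w' → w = w')
    (Hind : ∀ (n : ℕ) (c b : Fin n → E) (wb : Fin n → e), (∀ i, c i ∈ F₁) →
      (∀ i, R (b i) (wb i)) →
      (∀ v : Fin n → e, (∀ i, v i ∈ G₁) → ∑ i, v i * wb i = 0 → ∀ i, v i = 0) →
      ∑ i, c i * b i = 0 → ∀ i, c i = 0)
    (Hcoef : ∀ (n : ℕ) (c b : Fin n → E) (wb : Fin n → e), (∀ i, c i ∈ F₁) →
      (∀ i, R (b i) (wb i)) →
      (∀ v : Fin n → e, (∀ i, v i ∈ G₁) → ∑ i, v i * wb i = 0 → ∀ i, v i = 0) →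
      ∀ wz : e, R (∑ i, c i * b i) wz → ∀ i, ∃ v : e, v ∈ G₁ ∧ R (c i) v)
    (H3 : ∀ w : e, w ∈ G₂ → ∃ x : E, x ∈ F₂ ∧ R x w)
    (H4 : Module.finrank ↥F₁ ↥(IntermediateField.extendScalars hF) =
      Module.finrank ↥G₁ ↥(IntermediateField.extendScalars hG))
    (H5 : Module.finrank ↥G₁ ↥(IntermediateField.extendScalars hG) ≠ 0)
    (x : ↥(IntermediateField.extendScalars hF)) (w : ↥(IntermediateField.extendScalars hG))
    (h : R (x : E) (w : e)) :
    R ((Algebra.trace ↥F₁ ↥(IntermediateField.extendScalars hF) x : ↥F₁) : E)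
      ((Algebra.trace ↥G₁ ↥(IntermediateField.extendScalars hG) w : ↥G₁) : e) := by
  classical
  obtain ⟨n, bb, bt, hbt⟩ := exists_lifted_bases_abs R hF hG Hind H3 H4 H5
  have hM := rel_leftMulMatrix R hF hG hadd hmul hint huniq Hcoef bb bt hbt x w h
  rw [Algebra.trace_eq_matrix_trace bb x, Algebra.trace_eq_matrix_trace bt w, Matrix.trace,
    Matrix.trace]
  simp only [AddSubmonoidClass.coe_finsetSum, Matrix.diag_apply]
  exact rel_sum R hadd hint _ _ _ fun i _ => hM i i

end Abs

end Fermat.Agent.S18.RED3869
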