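import Fermat.Agent.S18.RED3869.NormCore
import Fermat.Agent.S18.RED3869.NormAbs

/-!
# S18 / RED, piece 6 (NORM), generic main theorem and the modular inputs (helper3869)

* `isRedOf_norm_generic`, `isRedOf_trace_generic`: towers `Fb₁ ≤ Fb₂ ⊆ L((q))`,
  `Ft₁ ≤ Ft₂ ⊆ k((q))` with (H1)-(H4) of `NormCore.lean`: the Gauss reduction commutes with norm
  and trace.
* `bar_eq_fullC`, `bar_mono`, `natCast_residue_ne_zero`, `finrank_bar_eq`, `finrank_full_ne_zero`:
  the modular inputs (degrees from piece 3).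
-/

set_option autoImplicit false
set_option linter.unusedSectionVars false

noncomputable section

namespace Fermat.Agent.S18.RED3869

open ModularCurve AlgebraicCurve Fermat.Agent.S18

section Main

variable {L : Type*} [Field L] {A : ValuationSubring L}
variable {Fb₁ Fb₂ : IntermediateField L (LaurentSeries L)}
variable {Ft₁ Ft₂ : IntermediateField (IsLocalRing.ResidueField A)
  (LaurentSeries (IsLocalRing.ResidueField A))}

theorem isRedOf_intCast (n : ℤ) :
    IsRedOf A ((n : LaurentSeries L)) ((n : LaurentSeries (IsLocalRing.ResidueField A))) := by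
  have h := isRedOf_coeffMap A ((n : LaurentSeries A))
  rwa [map_intCast, map_intCast] at h

/-- **Norm compatibility**, generic version. -/
theorem isRedOf_norm_generic (hb : Fb₁ ≤ Fb₂) (ht : Ft₁ ≤ Ft₂)
    (H1 : ∀ (x : LaurentSeries L) (w : LaurentSeries (IsLocalRing.ResidueField A)),
      x ∈ Fb₁ → IsRedOf A x w → w ∈ Ft₁)
    (H2 : ∀ f : LaurentSeries L, f ∈ Fb₁ → f ≠ 0 →
      ∃ (c : L) (w : LaurentSeries (IsLocalRing.ResidueField A)), c ≠ 0 ∧ w ≠ 0 ∧
        IsRedOf A (HahnSeries.C c * f) w)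
    (H3 : ∀ w : LaurentSeries (IsLocalRing.ResidueField A), w ∈ Ft₂ →
      ∃ x : LaurentSeries L, x ∈ Fb₂ ∧ IsRedOf A x w)
    (H4 : Module.finrank ↥Fb₁ ↥(IntermediateField.extendScalars hb) =
      Module.finrank ↥Ft₁ ↥(IntermediateField.extendScalars ht))
    (H5 : Module.finrank ↥Ft₁ ↥(IntermediateField.extendScalars ht) ≠ 0)
    (x : ↥(IntermediateField.extendScalars hb)) (w : ↥(IntermediateField.extendScalars ht))
    (h : IsRedOf A (x : LaurentSeries L) (w : LaurentSeries (IsLocalRing.ResidueField A))) :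
    IsRedOf A ((Algebra.norm ↥Fb₁ x : ↥Fb₁) : LaurentSeries L)
      ((Algebra.norm ↥Ft₁ w : ↥Ft₁) : LaurentSeries (IsLocalRing.ResidueField A)) :=
  rel_norm (IsRedOf A) hb ht (fun _ _ _ _ h h' => h.add h') (fun _ _ _ _ h h' => h.mul h')
    isRedOf_intCast (fun _ _ _ h h' => h.unique h')
    (fun _ c b wb hc hb' hind hsum => eq_zero_of_sum_eq_zero Fb₁ Ft₁ H1 H2 c b wb hc hb' hind hsum)
    (fun _ c b wb hc hb' hind wz hz =>
      exists_isRedOf_coeff Fb₁ Ft₁ H1 H2 c b wb hc hb' hind wz hz)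
    H3 H4 H5 x w h

/-- **Trace compatibility**, generic version. -/
theorem isRedOf_trace_generic (hb : Fb₁ ≤ Fb₂) (ht : Ft₁ ≤ Ft₂)
    (H1 : ∀ (x : LaurentSeries L) (w : LaurentSeries (IsLocalRing.ResidueField A)),
      x ∈ Fb₁ → IsRedOf A x w → w ∈ Ft₁)
    (H2 : ∀ f : LaurentSeries L, f ∈ Fb₁ → f ≠ 0 →
      ∃ (c : L) (w : LaurentSeries (IsLocalRing.ResidueField A)), c ≠ 0 ∧ w ≠ 0 ∧
        IsRedOf A (HahnSeries.C c * f) w)
    (H3 : ∀ w : LaurentSeries (IsLocalRing.ResidueField A), w ∈ Ft₂ →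
      ∃ x : LaurentSeries L, x ∈ Fb₂ ∧ IsRedOf A x w)
    (H4 : Module.finrank ↥Fb₁ ↥(IntermediateField.extendScalars hb) =
      Module.finrank ↥Ft₁ ↥(IntermediateField.extendScalars ht))
    (H5 : Module.finrank ↥Ft₁ ↥(IntermediateField.extendScalars ht) ≠ 0)
    (x : ↥(IntermediateField.extendScalars hb)) (w : ↥(IntermediateField.extendScalars ht))
    (h : IsRedOf A (x : LaurentSeries L) (w : LaurentSeries (IsLocalRing.ResidueField A))) :
    IsRedOf A ((Algebra.trace ↥Fb₁ ↥(IntermediateField.extendScalars hb) x : ↥Fb₁) :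
        LaurentSeries L)
      ((Algebra.trace ↥Ft₁ ↥(IntermediateField.extendScalars ht) w : ↥Ft₁) :
        LaurentSeries (IsLocalRing.ResidueField A)) :=
  rel_trace (IsRedOf A) hb ht (fun _ _ _ _ h h' => h.add h') (fun _ _ _ _ h h' => h.mul h')
    isRedOf_intCast (fun _ _ _ h h' => h.unique h')
    (fun _ c b wb hc hb' hind hsum => eq_zero_of_sum_eq_zero Fb₁ Ft₁ H1 H2 c b wb hc hb' hind hsum)
    (fun _ c b wb hc hb' hind wz hz =>
      exists_isRedOf_coeff Fb₁ Ft₁ H1 H2 c b wb hc hb' hind wz hz)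
    H3 H4 H5 x w h

end Main

section Modular

/-- `ℚ̄(X₀(N))` in the two Prelude incarnations. -/
theorem bar_eq_fullC (N : ℕ) [NeZero N] :
    modularFunctionFieldBar N = modularFunctionFieldFullC (AlgebraicClosure ℚ) N := by
  have hgen : ∀ (d : ℕ) [NeZero d], coeffEmb (AlgebraicClosure ℚ) (qExpand ℚ d jq) =
      qExpand (AlgebraicClosure ℚ) d (jqModC (AlgebraicClosure ℚ)) := by
    intro d _
    rw [coeffEmb, coeffMap_qExpand, ← jqModC_rat, coeffMap_jqModC]
  apply le_antisymm
  · rw [modularFunctionFieldBar, laurentBaseChange, IntermediateField.adjoin_le_iff]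
    rintro _ ⟨x, hx, rfl⟩
    have hx' : x ∈ Subfield.closure
        (Set.range (algebraMap ℚ (LaurentSeries ℚ)) ∪ divisorExpansions N) := hx
    have hle : Subfield.closure
        (Set.range (algebraMap ℚ (LaurentSeries ℚ)) ∪ divisorExpansions N) ≤
        (modularFunctionFieldFullC (AlgebraicClosure ℚ) N).toSubfield.comap
          (coeffEmb (AlgebraicClosure ℚ)) := by
      rw [Subfield.closure_le]
      rintro y (⟨r, rfl⟩ | ⟨d, hne, hdvd, rfl⟩)
      · show coeffEmb (AlgebraicClosure ℚ) (algebraMap ℚ (LaurentSeries ℚ) r) ∈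
          modularFunctionFieldFullC (AlgebraicClosure ℚ) N
        have h1 : coeffEmb (AlgebraicClosure ℚ) (algebraMap ℚ (LaurentSeries ℚ) r) =
            algebraMap (AlgebraicClosure ℚ) (LaurentSeries (AlgebraicClosure ℚ))
              (algebraMap ℚ (AlgebraicClosure ℚ) r) := by
          rw [algebraMap_laurentSeries_eq_single, algebraMap_laurentSeries_eq_single, coeffEmb,
            coeffMap_single]
        rw [h1]
        exact IntermediateField.algebraMap_mem _ _
      · have := hne
        show coeffEmb (AlgebraicClosure ℚ) (qExpand ℚ d jq) ∈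
          modularFunctionFieldFullC (AlgebraicClosure ℚ) N
        rw [hgen d]
        exact jqModCd_mem_full _ N hdvd
    exact hle hx'
  · rw [modularFunctionFieldFullC, IntermediateField.adjoin_le_iff]
    rintro x ⟨d, hne, hdvd, rfl⟩
    have := hne
    rw [← hgen d]
    exact coeffEmb_mem_laurentBaseChange _ (jqd_mem_full N hdvd)

theorem bar_mono {N M : ℕ} [NeZero N] [NeZero M] (h : N ∣ M) :
    modularFunctionFieldBar N ≤ modularFunctionFieldBar M :=
  IntermediateField.adjoin.mono _ _ _ (Set.image_mono (full_degeneracy_le h))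

theorem psiIdx_ne_zero (N : ℕ) [NeZero N] : psiIdx N ≠ 0 :=
  Subgroup.FiniteIndex.index_ne_zero

theorem natCast_residue_ne_zero (A : ValuationSubring (AlgebraicClosure ℚ)) {ℓ M : ℕ}
    [Fact ℓ.Prime] (hA : A.LiesOverPrime ℓ) (hℓM : ¬ ℓ ∣ M) :
    ((M : ℕ) : IsLocalRing.ResidueField A) ≠ 0 := by
  intro h0
  have hcop : Nat.Coprime ℓ M := (Nat.Prime.coprime_iff_not_dvd Fact.out).mpr hℓM
  have hℓ0 : ((ℓ : ℕ) : IsLocalRing.ResidueField A) = 0 := by
    have h1 : IsLocalRing.residue A ((ℓ : ℕ) : A) = 0 := by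
      rw [IsLocalRing.residue_eq_zero_iff, ValuationSubring.valuation_lt_one_iff]
      have h2 : A.valuation ((ℓ : ℕ) : AlgebraicClosure ℚ) < 1 :=
        (ValuationSubring.mem_nonunits_iff _).mp hA
      simpa using h2
    rwa [map_natCast] at h1
  obtain ⟨a, b, hab⟩ := Nat.isCoprime_iff_coprime.mpr hcop
  have h1 : ((a * (ℓ : ℤ) + b * (M : ℤ) : ℤ) : IsLocalRing.ResidueField A) = 1 := by
    rw [hab]
    simp
  push_cast at h1
  rw [hℓ0, h0, mul_zero, mul_zero, add_zero] at h1
  exact zero_ne_one h1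

/-- `[ℚ̄(X₀(M)) : ℚ̄(X₀(N))] = [k(X₀(M)) : k(X₀(N))]`. -/
theorem finrank_bar_eq {N M : ℕ} [NeZero N] [NeZero M] {ℓ : ℕ} [Fact ℓ.Prime]
    (A : ValuationSubring (AlgebraicClosure ℚ)) (hNM : N ∣ M) (hℓM : ¬ ℓ ∣ M)
    (hA : A.LiesOverPrime ℓ) (hb : modularFunctionFieldBar N ≤ modularFunctionFieldBar M) :
    Module.finrank ↥(modularFunctionFieldBar N) ↥(IntermediateField.extendScalars hb) =
      Module.finrank ↥(modularFunctionFieldFullC (IsLocalRing.ResidueField A) N)
        ↥(IntermediateField.extendScalars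
          (full_degeneracyC_le (IsLocalRing.ResidueField A) hNM)) := by
  have e1 : Module.finrank ↥(modularFunctionFieldBar N) ↥(IntermediateField.extendScalars hb) =
      (modularFunctionFieldBar N).relfinrank (modularFunctionFieldBar M) :=
    (IntermediateField.relfinrank_eq_finrank_of_le hb).symm
  have e2 : Module.finrank ↥(modularFunctionFieldFullC (IsLocalRing.ResidueField A) N)
        ↥(IntermediateField.extendScalars
          (full_degeneracyC_le (IsLocalRing.ResidueField A) hNM)) =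
      (modularFunctionFieldFullC (IsLocalRing.ResidueField A) N).relfinrank
        (modularFunctionFieldFullC (IsLocalRing.ResidueField A) M) :=
    (IntermediateField.relfinrank_eq_finrank_of_le _).symm
  rw [e1, e2, bar_eq_fullC N, bar_eq_fullC M]
  have hM0 : ((M : ℕ) : AlgebraicClosure ℚ) ≠ 0 := Nat.cast_ne_zero.mpr (NeZero.ne M)
  have h1 := relfinrank_full_full N (AlgebraicClosure ℚ) hNM hM0
  have h2 := relfinrank_full_full N (IsLocalRing.ResidueField A) hNM
    (natCast_residue_ne_zero A hA hℓM)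
  exact Nat.eq_of_mul_eq_mul_right (Nat.pos_of_ne_zero (psiIdx_ne_zero N)) (h1.trans h2.symm)

theorem finrank_full_ne_zero {N M : ℕ} [NeZero N] [NeZero M] {ℓ : ℕ} [Fact ℓ.Prime]
    (A : ValuationSubring (AlgebraicClosure ℚ)) (hNM : N ∣ M) (hℓM : ¬ ℓ ∣ M)
    (hA : A.LiesOverPrime ℓ) :
    Module.finrank ↥(modularFunctionFieldFullC (IsLocalRing.ResidueField A) N)
        ↥(IntermediateField.extendScalars
          (full_degeneracyC_le (IsLocalRing.ResidueField A) hNM)) ≠ 0 := by
  have e2 : Module.finrank ↥(modularFunctionFieldFullC (IsLocalRing.ResidueField A) N)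
        ↥(IntermediateField.extendScalars
          (full_degeneracyC_le (IsLocalRing.ResidueField A) hNM)) =
      (modularFunctionFieldFullC (IsLocalRing.ResidueField A) N).relfinrank
        (modularFunctionFieldFullC (IsLocalRing.ResidueField A) M) :=
    (IntermediateField.relfinrank_eq_finrank_of_le _).symm
  rw [e2]
  intro h0
  have h2 := relfinrank_full_full N (IsLocalRing.ResidueField A) hNM
    (natCast_residue_ne_zero A hA hℓM)
  rw [h0, zero_mul] at h2
  exact psiIdx_ne_zero M h2.symm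

end Modular

end Fermat.Agent.S18.RED3869
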