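import Mathlib

/-!
# S18 / T, Case B assembly: abstract lemmas (helper3869; Mathlib only)

* `isIntegral_adjoin_singleton_iff`: integrality over `K₀[c]` in terms of `aeval c`.
* `isIntegral_adjoin_map_iff`: integrality over `K₀[c]` is insensitive to an injective algebra hom.
* `isSeparable_extendScalars_of_le`: separability in a tower of intermediate fields.
* `isAlgClosed_residueField_valuationSubring`.
-/

set_option autoImplicit false

noncomputable section

namespace Fermat.Agent.S18.RED3869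

open Polynomial

section Integral

variable {K₀ S S' : Type*} [CommRing K₀] [CommRing S] [CommRing S'] [Algebra K₀ S] [Algebra K₀ S']

theorem isIntegral_adjoin_singleton_iff (c ω : S) :
    IsIntegral (Algebra.adjoin K₀ {c}) ω ↔
      ((Polynomial.aeval c : K₀[X] →ₐ[K₀] S) : K₀[X] →+* S).IsIntegralElem ω := by
  constructor
  · rintro ⟨p, hp, hpx⟩
    have hl : p.map (algebraMap ↥(Algebra.adjoin K₀ {c}) S) ∈
        Polynomial.lifts ((Polynomial.aeval c : K₀[X] →ₐ[K₀] S) : K₀[X] →+* S) := by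
      rw [Polynomial.lifts_iff_coeff_lifts]
      intro i
      rw [Polynomial.coeff_map]
      have h1 : ∀ t : S, t ∈ Algebra.adjoin K₀ {c} → ∃ π : K₀[X], Polynomial.aeval c π = t := by
        intro t ht
        rw [Algebra.adjoin_singleton_eq_range_aeval] at ht
        exact ht
      obtain ⟨π, hπ⟩ := h1 _ (p.coeff i).2
      exact ⟨π, hπ⟩
    obtain ⟨q, hq, -, hqm⟩ := Polynomial.lifts_and_natDegree_eq_and_monic hl (hp.map _)
    refine ⟨q, hqm, ?_⟩
    rw [Polynomial.eval₂_eq_eval_map, hq, Polynomial.eval_map]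
    exact hpx
  · rintro ⟨p, hp, hpx⟩
    have hf : ∀ r : K₀[X], ((Polynomial.aeval c : K₀[X] →ₐ[K₀] S) : K₀[X] →+* S) r ∈
        Algebra.adjoin K₀ {c} := by
      intro r
      rw [Algebra.adjoin_singleton_eq_range_aeval]
      exact ⟨r, rfl⟩
    let f' : K₀[X] →+* ↥(Algebra.adjoin K₀ {c}) :=
      ((Polynomial.aeval c : K₀[X] →ₐ[K₀] S) : K₀[X] →+* S).codRestrict (Algebra.adjoin K₀ {c}) hf
    refine ⟨p.map f', hp.map f', ?_⟩
    rw [Polynomial.eval₂_map]
    exact hpx

theorem isIntegral_adjoin_map_iff (φ : S →ₐ[K₀] S') (hφ : Function.Injective φ) (c ω : S) :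
    IsIntegral (Algebra.adjoin K₀ {φ c}) (φ ω) ↔ IsIntegral (Algebra.adjoin K₀ {c}) ω := by
  rw [isIntegral_adjoin_singleton_iff, isIntegral_adjoin_singleton_iff]
  have hcomp : ((Polynomial.aeval (φ c) : K₀[X] →ₐ[K₀] S') : K₀[X] →+* S') =
      (φ : S →+* S').comp ((Polynomial.aeval c : K₀[X] →ₐ[K₀] S) : K₀[X] →+* S) := by
    ext r
    · simp
    · simp
  constructor
  · rintro ⟨p, hp, hpx⟩
    refine ⟨p, hp, hφ ?_⟩
    rw [map_zero]
    have h1 := Polynomial.hom_eval₂ p ((Polynomial.aeval c : K₀[X] →ₐ[K₀] S) : K₀[X] →+* S)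
      (φ : S →+* S') ω
    rw [hcomp] at hpx
    exact h1.trans hpx
  · rintro ⟨p, hp, hpx⟩
    refine ⟨p, hp, ?_⟩
    have h1 := Polynomial.hom_eval₂ p ((Polynomial.aeval c : K₀[X] →ₐ[K₀] S) : K₀[X] →+* S)
      (φ : S →+* S') ω
    rw [hcomp]
    rw [hpx, map_zero] at h1
    exact h1.symm

end Integral

section Separable

variable {K₀ Ω : Type*} [Field K₀] [Field Ω] [Algebra K₀ Ω]
variable {K₁ F₁ F₂ : IntermediateField K₀ Ω}

theorem isSeparable_extendScalars_of_le (h₁ : K₁ ≤ F₁) (h₂ : F₁ ≤ F₂) (h₁₂ : K₁ ≤ F₂)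
    [hs : Algebra.IsSeparable ↥K₁ ↥(IntermediateField.extendScalars h₁₂)] :
    Algebra.IsSeparable ↥F₁ ↥(IntermediateField.extendScalars h₂) := by
  let _i1 : Algebra ↥K₁ ↥F₁ := (IntermediateField.inclusion h₁).toRingHom.toAlgebra
  have _i2 : IsScalarTower ↥K₁ ↥F₁ Ω := IsScalarTower.of_algebraMap_eq fun _ => rfl
  have _i3 : IsScalarTower ↥K₁ ↥F₁ ↥(IntermediateField.extendScalars h₂) :=
    IsScalarTower.of_algebraMap_eq fun _ => rfl
  let f : ↥(IntermediateField.extendScalars h₂) →ₐ[↥K₁] ↥(IntermediateField.extendScalars h₁₂) :=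
    { toFun := fun g => ⟨g.1, (IntermediateField.mem_extendScalars h₁₂).mpr
        ((IntermediateField.mem_extendScalars h₂).mp g.2)⟩
      map_one' := rfl
      map_mul' := fun _ _ => rfl
      map_zero' := rfl
      map_add' := fun _ _ => rfl
      commutes' := fun _ => rfl }
  have _i4 : Algebra.IsSeparable ↥K₁ ↥(IntermediateField.extendScalars h₂) :=
    Algebra.IsSeparable.of_algHom _ _ f
  exact Algebra.isSeparable_tower_top_of_isSeparable ↥K₁ ↥F₁ ↥(IntermediateField.extendScalars h₂)

end Separable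

section ResField

variable {L : Type*} [Field L] [IsAlgClosed L] (A : ValuationSubring L)

/-- The residue field of a valuation subring of an algebraically closed field is algebraically
closed. -/
theorem isAlgClosed_residueField_valuationSubring : IsAlgClosed (IsLocalRing.ResidueField A) := by
  refine IsAlgClosed.of_exists_root _ fun p hp hirr => ?_
  obtain ⟨q, hq, hdeg, hqm⟩ :=
    Polynomial.lifts_and_natDegree_eq_and_monic (f := IsLocalRing.residue A) (p := p)
      (by
        rw [Polynomial.mem_lifts]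
        exact Polynomial.map_surjective _ IsLocalRing.residue_surjective p) hp
  have hqdeg : q.natDegree ≠ 0 := by
    rw [hdeg]
    intro h0
    have h1 : p.degree = 0 := by
      rw [Polynomial.degree_eq_natDegree hp.ne_zero, h0]
      rfl
    exact hirr.not_isUnit (Polynomial.isUnit_iff_degree_eq_zero.mpr h1)
  have hq' : (q.map (algebraMap A L)).degree ≠ 0 := by
    rw [hqm.degree_map, Polynomial.degree_eq_natDegree hqm.ne_zero]
    exact_mod_cast hqdeg
  obtain ⟨α, hα⟩ := IsAlgClosed.exists_root _ hq'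
  have hαint : IsIntegral A α := ⟨q, hqm, by
    rw [← Polynomial.eval_map]
    exact hα⟩
  obtain ⟨a, rfl⟩ := (IsIntegrallyClosed.isIntegral_iff (R := A) (K := L)).mp hαint
  refine ⟨IsLocalRing.residue A a, ?_⟩
  have h0 : q.eval a = 0 := by
    apply FaithfulSMul.algebraMap_injective A L
    rw [map_zero, ← Polynomial.eval₂_at_apply, ← Polynomial.eval_map]
    exact hα
  rw [← hq, Polynomial.eval_map, Polynomial.eval₂_at_apply, h0, map_zero]

end ResField

end Fermat.Agent.S18.RED3869
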