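import Mathlib

/-!
# S18 / RED (E2), abstract lemmas (helper3869; Mathlib only)

* `isIntegral_subalgebra_of_isIntegralElem`: integrality over a ring hom with values in a subalgebra.
* `isIntegral_adjoin_norm`: the norm of an element integral over `K₀[c]`, `c ∈ F₁`, is integral
  over `K₀[c]` (everything inside an ambient field `Ω`).
* `exists_smul_mem_span_valuationSubring`: an `L`-combination of a family is a constant times an
  `A`-combination (`A` a valuation subring of `L`).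
-/

set_option autoImplicit false

noncomputable section

namespace Fermat.Agent.S18.RED3869

open Polynomial

theorem isIntegral_subalgebra_of_isIntegralElem {K S R : Type*} [CommRing K] [CommRing S]
    [CommRing R] [Algebra K S] (T : Subalgebra K S) (f : R →+* S) (hf : ∀ r, f r ∈ T) {x : S}
    (hx : f.IsIntegralElem x) : IsIntegral T x := by
  obtain ⟨p, hp, hpx⟩ := hx
  let f' : R →+* T := f.codRestrict T hf
  refine ⟨p.map f', hp.map f', ?_⟩
  rw [Polynomial.eval₂_map]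
  have h1 : (algebraMap (↥T) S).comp f' = f := RingHom.ext fun r => rfl
  rw [h1]
  exact hpx

section Norm

variable {K₀ Ω : Type*} [Field K₀] [Field Ω] [Algebra K₀ Ω]
variable {F₁ F₂ : IntermediateField K₀ Ω}

theorem isIntegral_adjoin_norm (h : F₁ ≤ F₂) {c : Ω} (hc : c ∈ F₁)
    (x : ↥(IntermediateField.extendScalars h))
    (hx : IsIntegral (Algebra.adjoin K₀ {c}) (x : Ω)) :
    IsIntegral (Algebra.adjoin K₀ {c}) ((Algebra.norm ↥F₁ x : ↥F₁) : Ω) := by
  have hle : Algebra.adjoin K₀ {c} ≤ F₁.toSubalgebra :=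
    Algebra.adjoin_le (Set.singleton_subset_iff.mpr hc)
  let φ : ↥(Algebra.adjoin K₀ {c}) →+* ↥F₁ :=
    (algebraMap ↥(Algebra.adjoin K₀ {c}) Ω).codRestrict F₁ (fun r => hle r.2)
  let _i1 : Algebra ↥(Algebra.adjoin K₀ {c}) ↥F₁ := φ.toAlgebra
  let _i2 : Algebra ↥(Algebra.adjoin K₀ {c}) ↥(IntermediateField.extendScalars h) :=
    ((algebraMap ↥F₁ ↥(IntermediateField.extendScalars h)).comp φ).toAlgebra
  have _i3 : IsScalarTower ↥(Algebra.adjoin K₀ {c}) ↥F₁ ↥(IntermediateField.extendScalars h) :=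
    IsScalarTower.of_algebraMap_eq fun _ => rfl
  -- integrality of `x` for the new structure
  have hx' : IsIntegral ↥(Algebra.adjoin K₀ {c}) x := by
    obtain ⟨p, hp, hpx⟩ := hx
    refine ⟨p, hp, ?_⟩
    apply Subtype.ext
    have h1 := Polynomial.hom_eval₂ p
      (algebraMap ↥(Algebra.adjoin K₀ {c}) ↥(IntermediateField.extendScalars h))
      (IntermediateField.extendScalars h).val.toRingHom x
    exact h1.trans hpx
  obtain ⟨p, hp, hpx⟩ := Algebra.isIntegral_norm ↥F₁ hx'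
  refine ⟨p, hp, ?_⟩
  have h1 := Polynomial.hom_eval₂ p (algebraMap ↥(Algebra.adjoin K₀ {c}) ↥F₁)
    F₁.val.toRingHom (Algebra.norm ↥F₁ x)
  have h2 := congrArg (Subtype.val : ↥F₁ → Ω) hpx
  exact h1.symm.trans h2

end Norm

section Span

variable {L : Type*} [Field L] (A : ValuationSubring L) {V : Type*} [AddCommGroup V] [Module L V]
  [Module A V] [IsScalarTower A L V]

theorem exists_smul_mem_span_valuationSubring (G : Set V) {z : V}
    (hz : z ∈ Submodule.span L G) :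
    ∃ (c : L) (z₀ : V), z₀ ∈ Submodule.span A G ∧ z = c • z₀ := by
  induction hz using Submodule.span_induction with
  | mem g hg => exact ⟨1, g, Submodule.subset_span hg, (one_smul _ _).symm⟩
  | zero => exact ⟨0, 0, Submodule.zero_mem _, (zero_smul _ _).symm⟩
  | add u v _ _ hu hv =>
    obtain ⟨c₁, u₀, hu₀, rfl⟩ := hu
    obtain ⟨c₂, v₀, hv₀, rfl⟩ := hv
    by_cases hc₂ : c₂ = 0
    · exact ⟨c₁, u₀, hu₀, by rw [hc₂, zero_smul, add_zero]⟩
    by_cases hc₁ : c₁ = 0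
    · exact ⟨c₂, v₀, hv₀, by rw [hc₁, zero_smul, zero_add]⟩
    rcases A.mem_or_inv_mem (c₁ * c₂⁻¹) with hr | hr
    · refine ⟨c₂, (⟨c₁ * c₂⁻¹, hr⟩ : A) • u₀ + v₀,
        Submodule.add_mem _ (Submodule.smul_mem _ _ hu₀) hv₀, ?_⟩
      have h1 : (⟨c₁ * c₂⁻¹, hr⟩ : A) • u₀ = (c₁ * c₂⁻¹) • u₀ :=
        (algebraMap_smul L (⟨c₁ * c₂⁻¹, hr⟩ : A) u₀).symm
      rw [h1, smul_add, smul_smul, mul_comm c₂, mul_assoc, inv_mul_cancel₀ hc₂, mul_one]
    · refine ⟨c₁, u₀ + (⟨(c₁ * c₂⁻¹)⁻¹, hr⟩ : A) • v₀,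
        Submodule.add_mem _ hu₀ (Submodule.smul_mem _ _ hv₀), ?_⟩
      have h1 : (⟨(c₁ * c₂⁻¹)⁻¹, hr⟩ : A) • v₀ = (c₁ * c₂⁻¹)⁻¹ • v₀ :=
        (algebraMap_smul L (⟨(c₁ * c₂⁻¹)⁻¹, hr⟩ : A) v₀).symm
      have h2 : c₁ * (c₁ * c₂⁻¹)⁻¹ = c₂ := by
        field_simp
      rw [h1, smul_add, smul_smul, h2]
  | smul a u _ hu =>
    obtain ⟨c, u₀, hu₀, rfl⟩ := hu
    exact ⟨a * c, u₀, hu₀, by rw [smul_smul]⟩

end Span

end Fermat.Agent.S18.RED3869
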