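import Fermat.Agent.S18.RED.P6
import Fermat.Agent.S18.RED3869.R1
import Fermat.Agent.S18.RED3869.E2Abs
import Fermat.Agent.S18.RED3889.Normalize
import Fermat.Agent.S37.RIR.GenericNormal

/-!
# S18 / RED, export (E2) of `notes/S18_T_design.md`: norms of chart-integral series (helper3869)

`N ∣ M`, `ℓ ∤ M`, `A` a valuation subring of `ℚ̄` over `ℓ`.  For `y ∈ A((q))` chart-integral at level
`M` (chart `j ≠ ∞`) there is `y'` chart-integral at level `N` with
`gen y' = Norm_{Fb(M)/Fb(N)}(gen y)` and `red y' = Norm_{Ft(M)/Ft(N)}(red y)`.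

Proof: `z := Norm(gen y)` is integral over `ℚ̄[j]` (`isIntegral_adjoin_norm`), hence in the
`ℚ̄`-span of the chart algebra of level `N` (GN, helper3343), hence `z = C c * gen y₁` with `y₁`
chart-integral of nonzero reduction (scaling + R3, helper3889); `z` has a Gauss reduction, namely
`Norm(red y)` (piece 6), so `c ∈ A` (`IsRedOf.const_mem`) and `y' := C c * y₁` works.
-/

set_option autoImplicit false
set_option linter.unusedSectionVars false

noncomputable section

namespace Fermat.Agent.S18.RED3869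

open ModularCurve AlgebraicCurve ModularCurve.IgusaScheme Fermat.Agent.S18

local notation "Q̄" => AlgebraicClosure ℚ

section Integral

variable (ℓ : ℕ) [Fact ℓ.Prime] (A : ValuationSubring Q̄) (N : ℕ) [NeZero N]

/-- the ring hom `ℚ(X₀(N)) → ℚ̄((q))` -/
def embF : ↥(modularFunctionFieldFull N) →+* LaurentSeries Q̄ :=
  (coeffEmb Q̄).comp (algebraMap ↥(modularFunctionFieldFull N) (LaurentSeries ℚ))

theorem embF_apply (x : ↥(modularFunctionFieldFull N)) :
    embF N x = coeffEmb Q̄ (x : LaurentSeries ℚ) := rfl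

theorem coeffEmb_algebraMap (r : ℚ) :
    coeffEmb Q̄ (algebraMap ℚ (LaurentSeries ℚ) r) =
      algebraMap Q̄ (LaurentSeries Q̄) (algebraMap ℚ Q̄ r) := by
  rw [algebraMap_laurentSeries_eq_single, algebraMap_laurentSeries_eq_single, coeffEmb,
    coeffMap_single]

/-- elements of the chart algebra have `q`-expansions integral over `ℚ̄[S]` -/
theorem isIntegral_coeffEmb_of_mem_chartAlg (S : Set ↥(modularFunctionFieldFull N))
    (e : chartAlg N ℓ S) :
    IsIntegral (Algebra.adjoin Q̄
        ((fun s : ↥(modularFunctionFieldFull N) => coeffEmb Q̄ (s : LaurentSeries ℚ)) '' S))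
      (coeffEmb Q̄ ((e : ↥(modularFunctionFieldFull N)) : LaurentSeries ℚ)) := by
  have he : IsIntegral (Algebra.adjoin ↥(GaloisRep.ratLocalizedAt ℓ) S)
      (e : ↥(modularFunctionFieldFull N)) := e.2
  obtain ⟨p, hp, hpe⟩ := he
  refine isIntegral_subalgebra_of_isIntegralElem _
    ((embF N).comp (algebraMap (Algebra.adjoin ↥(GaloisRep.ratLocalizedAt ℓ) S)
      ↥(modularFunctionFieldFull N))) ?_ ⟨p, hp, ?_⟩
  · rintro ⟨r, hr⟩
    show embF N r ∈ Algebra.adjoin Q̄ _
    induction hr using Algebra.adjoin_induction with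
    | mem s hs => exact Algebra.subset_adjoin ⟨s, hs, rfl⟩
    | algebraMap r =>
      have h1 : embF N (algebraMap ↥(GaloisRep.ratLocalizedAt ℓ) ↥(modularFunctionFieldFull N) r) =
          algebraMap Q̄ (LaurentSeries Q̄) (algebraMap ℚ Q̄ (r : ℚ)) := by
        have h0 : ((algebraMap ↥(GaloisRep.ratLocalizedAt ℓ) ↥(modularFunctionFieldFull N) r :
            ↥(modularFunctionFieldFull N)) : LaurentSeries ℚ) =
            algebraMap ℚ (LaurentSeries ℚ) (r : ℚ) :=
          Fermat.Agent.S28.QRed.valF_algebraMap N ℓ r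
        rw [embF_apply, h0, coeffEmb_algebraMap]
      rw [h1]
      exact Subalgebra.algebraMap_mem _ _
    | add x y _ _ hx hy => rw [map_add]; exact add_mem hx hy
    | mul x y _ _ hx hy => rw [map_mul]; exact mul_mem hx hy
  · have h1 := Polynomial.hom_eval₂ p (algebraMap (Algebra.adjoin ↥(GaloisRep.ratLocalizedAt ℓ) S)
      ↥(modularFunctionFieldFull N)) (embF N) (e : ↥(modularFunctionFieldFull N))
    rw [hpe, map_zero] at h1
    exact h1.symm

/-- elements of the `A`-span of the chart algebra are integral over `ℚ̄[S]` -/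
theorem isIntegral_of_mem_chartSpan (S : Set ↥(modularFunctionFieldFull N))
    {z : LaurentSeries Q̄} (hz : z ∈ chartSpan ℓ A N S) :
    IsIntegral (Algebra.adjoin Q̄
        ((fun s : ↥(modularFunctionFieldFull N) => coeffEmb Q̄ (s : LaurentSeries ℚ)) '' S)) z := by
  induction hz using Submodule.span_induction with
  | mem w hw =>
    obtain ⟨e, rfl⟩ := hw
    exact isIntegral_coeffEmb_of_mem_chartAlg ℓ N S e
  | zero => exact isIntegral_zero
  | add u v _ _ hu hv => exact hu.add hv
  | smul a u _ hu =>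
    rw [smul_eq_C_mul]
    have h1 : HahnSeries.C ((a : A) : Q̄) = algebraMap Q̄ (LaurentSeries Q̄) (a : Q̄) := by
      rw [algebraMap_laurentSeries_eq_single, HahnSeries.C_apply]
    rw [h1]
    exact (isIntegral_algebraMap (R := ↥(Algebra.adjoin Q̄
        ((fun s : ↥(modularFunctionFieldFull N) => coeffEmb Q̄ (s : LaurentSeries ℚ)) '' S)))
      (x := (⟨algebraMap Q̄ (LaurentSeries Q̄) (a : Q̄), Subalgebra.algebraMap_mem _ _⟩ :
        ↥(Algebra.adjoin Q̄ ((fun s : ↥(modularFunctionFieldFull N) =>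
          coeffEmb Q̄ (s : LaurentSeries ℚ)) '' S))))).mul hu

theorem isIntegral_congr_set {K S : Type*} [CommRing K] [CommRing S] [Algebra K S] {s t : Set S}
    (h : s = t) {x : S} (hx : IsIntegral (Algebra.adjoin K s) x) :
    IsIntegral (Algebra.adjoin K t) x := by
  subst h
  exact hx

theorem image_jFull :
    ((fun s : ↥(modularFunctionFieldFull N) => coeffEmb Q̄ (s : LaurentSeries ℚ)) '' {jFull N}) =
      {coeffEmb Q̄ jq} := by
  rw [Set.image_singleton]
  rfl

theorem coeffEmb_jq_mem : coeffEmb Q̄ jq ∈ modularFunctionFieldBar N :=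
  (jb N).2

variable {ℓ A N}

/-- elements of the chart span have coefficients in `A` -/
theorem exists_coeffMap_eq_of_mem_chartSpan (hA : A.LiesOverPrime ℓ)
    {z : LaurentSeries Q̄} (hz : z ∈ chartSpan ℓ A N {jFull N}) :
    ∃ y : LaurentSeries A, coeffMap A.subtype y = z := by
  induction hz using Submodule.span_induction with
  | mem w hw =>
    obtain ⟨e, rfl⟩ := hw
    exact ⟨_, RED3889.coeffMap_subtype_phiA_qExpChart hA _ (RED1249.hS_fin ℓ N) e⟩
  | zero => exact ⟨0, map_zero _⟩
  | add u v _ _ hu hv =>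
    obtain ⟨y₁, rfl⟩ := hu
    obtain ⟨y₂, rfl⟩ := hv
    exact ⟨y₁ + y₂, map_add _ _ _⟩
  | smul a u _ hu =>
    obtain ⟨y₁, rfl⟩ := hu
    exact ⟨a • y₁, RED3889.coeffMap_subtype_smul a y₁⟩

end Integral

section Main

variable {N M : ℕ} [NeZero N] [NeZero M] {ℓ : ℕ} [Fact ℓ.Prime] {A : ValuationSubring Q̄}

/-- **Key lemma.**  A series `z ∈ ℚ̄(X₀(N))`, integral over `ℚ̄[j]` and having a Gauss reduction
`ζ`, is the generic fibre of a chart-integral series (chart `j ≠ ∞`) with reduction `ζ`. -/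
theorem exists_isIntFin_of_isIntegral_of_isRedOf (hℓN : ¬ ℓ ∣ N) (hA : A.LiesOverPrime ℓ)
    {z : LaurentSeries Q̄} (hz : z ∈ modularFunctionFieldBar N)
    (hint : IsIntegral (Algebra.adjoin Q̄ {coeffEmb Q̄ jq}) z)
    {ζ : LaurentSeries (IsLocalRing.ResidueField A)} (hred : IsRedOf A z ζ) :
    ∃ y' : LaurentSeries A, IsIntFin ℓ A N y' ∧ coeffMap A.subtype y' = z ∧
      coeffMap (IsLocalRing.residue A) y' = ζ := by
  -- GN: `z` lies in the `ℚ̄`-span of the chart algebra
  have h1 : z ∈ Submodule.span Q̄ (Set.range fun y : chartAlg N ℓ {jFull N} =>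
      coeffEmb Q̄ ((y : ↥(modularFunctionFieldFull N)) : LaurentSeries ℚ)) := by
    apply Fermat.Agent.S37.RIR.GN.mem_span_chartAlg_of_isIntegral N ℓ {jFull N} hz
    rw [image_jFull]
    exact hint
  -- scaling: `z = c • z₀`, `z₀` in the `A`-span
  obtain ⟨c, z₀, hz₀, rfl⟩ := exists_smul_mem_span_valuationSubring A _ h1
  have hz₀' : z₀ ∈ chartSpan ℓ A N {jFull N} := hz₀
  obtain ⟨y₀, rfl⟩ := exists_coeffMap_eq_of_mem_chartSpan hA hz₀'
  have hy₀ : IsIntFin ℓ A N y₀ := hz₀'
  by_cases hy0 : y₀ = 0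
  · subst hy0
    have hzero : c • coeffMap A.subtype (0 : LaurentSeries A) = 0 := by
      rw [map_zero, smul_zero]
    rw [hzero] at hred ⊢
    refine ⟨0, ?_, map_zero _, ?_⟩
    · show coeffMap A.subtype (0 : LaurentSeries A) ∈ chartSpan ℓ A N {jFull N}
      rw [map_zero]
      exact Submodule.zero_mem _
    · rw [map_zero]
      exact (isRedOf_eq_zero hred).symm
  · obtain ⟨c', y₁, -, hy₁, rfl, hy₁red⟩ :=
      RED3889.isChartInt_exists_normalize hℓN hA (Or.inl rfl) hy₀ hy0
    have hzeq : c • coeffMap A.subtype (HahnSeries.C c' * y₁) =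
        HahnSeries.C (c * (c' : Q̄)) * coeffMap A.subtype y₁ := by
      have e1 : coeffMap A.subtype (HahnSeries.C c' * y₁) =
          HahnSeries.C (c' : Q̄) * coeffMap A.subtype y₁ := by
        rw [map_mul, coeffMap_C]
        rfl
      rw [e1, ← HahnSeries.C_mul_eq_smul, ← mul_assoc, ← map_mul]
    rw [hzeq] at hred ⊢
    have hcA : c * (c' : Q̄) ∈ A := IsRedOf.const_mem (isRedOf_coeffMap A y₁) hy₁red hred
    have hgen : coeffMap A.subtype (HahnSeries.C (⟨c * (c' : Q̄), hcA⟩ : A) * y₁) =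
        HahnSeries.C (c * (c' : Q̄)) * coeffMap A.subtype y₁ := by
      rw [map_mul, coeffMap_C]
      rfl
    refine ⟨HahnSeries.C (⟨c * (c' : Q̄), hcA⟩ : A) * y₁,
      isChartInt_mul ℓ A N _ (isChartInt_C ℓ A N _ _) hy₁, hgen, ?_⟩
    have h2 := isRedOf_coeffMap A (HahnSeries.C (⟨c * (c' : Q̄), hcA⟩ : A) * y₁)
    rw [hgen] at h2
    exact h2.unique hred

/-- **(E2), chart `j ≠ ∞`: norms of chart-integral series are chart-integral, compatibly with
reduction.**  `N ∣ M`, `ℓ ∤ M`; `y` chart-integral at level `M` with generic fibre `x` and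
reduction `w`: there is `y'` chart-integral at level `N` with generic fibre
`Norm_{Fb(M)/Fb(N)} x` and reduction `Norm_{Ft(M)/Ft(N)} w`. -/
theorem exists_isIntFin_norm (hNM : N ∣ M) (hℓM : ¬ ℓ ∣ M) (hA : A.LiesOverPrime ℓ)
    (y : LaurentSeries A) (hy : IsIntFin ℓ A M y)
    (x : ↥(IntermediateField.extendScalars (modularFunctionFieldBar_mono hNM)))
    (hx : (x : LaurentSeries Q̄) = coeffMap A.subtype y)
    (w : ↥(IntermediateField.extendScalars
      (full_degeneracyC_le (IsLocalRing.ResidueField A) hNM)))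
    (hw : (w : LaurentSeries (IsLocalRing.ResidueField A)) =
      coeffMap (IsLocalRing.residue A) y) :
    ∃ y' : LaurentSeries A, IsIntFin ℓ A N y' ∧
      coeffMap A.subtype y' =
        ((Algebra.norm ↥(modularFunctionFieldBar N) x : ↥(modularFunctionFieldBar N)) :
          LaurentSeries Q̄) ∧
      coeffMap (IsLocalRing.residue A) y' =
        ((Algebra.norm ↥(modularFunctionFieldFullC (IsLocalRing.ResidueField A) N) w :
          ↥(modularFunctionFieldFullC (IsLocalRing.ResidueField A) N)) :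
          LaurentSeries (IsLocalRing.ResidueField A)) := by
  have hℓN : ¬ ℓ ∣ N := fun h' => hℓM (h'.trans hNM)
  have hxw : IsRedOf A (x : LaurentSeries Q̄)
      (w : LaurentSeries (IsLocalRing.ResidueField A)) := by
    rw [hx, hw]
    exact isRedOf_coeffMap A y
  have hnorm := isRedOf_norm A hNM hℓM hA x w hxw
  have hxint : IsIntegral (Algebra.adjoin Q̄ {coeffEmb Q̄ jq}) (x : LaurentSeries Q̄) := by
    rw [hx]
    exact isIntegral_congr_set (image_jFull M) (isIntegral_of_mem_chartSpan ℓ A M _ hy)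
  have hzint := isIntegral_adjoin_norm (modularFunctionFieldBar_mono hNM) (coeffEmb_jq_mem N) x
    hxint
  exact exists_isIntFin_of_isIntegral_of_isRedOf hℓN hA
    (Algebra.norm ↥(modularFunctionFieldBar N) x).2 hzint hnorm

end Main

end Fermat.Agent.S18.RED3869
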