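import Fermat.Agent.S18.RED.P5

/-!
# S18 / RED, piece 6 (NORM), generic core (helper3869)

`L` a field, `A` a valuation subring with residue field `k`; `Fb₁ ≤ Fb₂ ⊆ L((q))` and
`Ft₁ ≤ Ft₂ ⊆ k((q))` two towers of fields of Laurent series such that
* (H1) Gauss reductions of elements of `Fb₁` lie in `Ft₁`;
* (H2) every nonzero element of `Fb₁` is a constant times an element with nonzero Gauss reduction;
* (H3) every element of `Ft₂` is the Gauss reduction of an element of `Fb₂`;
* (H4) `[Fb₂ : Fb₁] = [Ft₂ : Ft₁] ≠ 0`.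
Then the Gauss reduction (`IsRedOf`) commutes with norm and trace of `Fb₂/Fb₁`, `Ft₂/Ft₁`.

Proof: lift a basis of `Ft₂/Ft₁`; the lifts are linearly independent over `Fb₁` (dominant
coefficient argument), hence a basis; the matrix of multiplication by `x` in this basis has entries
with Gauss reductions, and these form the matrix of multiplication by `w`.
-/

set_option autoImplicit false
set_option linter.unusedSectionVars false

noncomputable section

namespace Fermat.Agent.S18.RED3869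

open ModularCurve AlgebraicCurve Fermat.Agent.S18

section Calculus

variable {L : Type*} [Field L] {A : ValuationSubring L}

theorem nc_coeffMap_C {R S : Type*} [CommRing R] [CommRing S] (f : R →+* S) (r : R) :
    coeffMap f (HahnSeries.C r) = HahnSeries.C (f r) := by
  rw [HahnSeries.C_apply, HahnSeries.C_apply, coeffMap_single]

theorem isRedOf_zero : IsRedOf A (0 : LaurentSeries L) 0 := by
  have h := isRedOf_coeffMap A (0 : LaurentSeries A)
  rwa [map_zero, map_zero] at h

theorem isRedOf_one : IsRedOf A (1 : LaurentSeries L) 1 := by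
  have h := isRedOf_coeffMap A (1 : LaurentSeries A)
  rwa [map_one, map_one] at h

theorem isRedOf_C (a : A) :
    IsRedOf A (HahnSeries.C (a : L)) (HahnSeries.C (IsLocalRing.residue A a)) := by
  have h := isRedOf_coeffMap A (HahnSeries.C a)
  rwa [nc_coeffMap_C, nc_coeffMap_C] at h

theorem isRedOf_eq_zero {w : LaurentSeries (IsLocalRing.ResidueField A)}
    (h : IsRedOf A (0 : LaurentSeries L) w) : w = 0 :=
  h.unique isRedOf_zero

theorem isRedOf_sum {ι : Type*} (s : Finset ι) (x : ι → LaurentSeries L)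
    (w : ι → LaurentSeries (IsLocalRing.ResidueField A))
    (h : ∀ i ∈ s, IsRedOf A (x i) (w i)) : IsRedOf A (∑ i ∈ s, x i) (∑ i ∈ s, w i) := by
  classical
  induction s using Finset.induction_on with
  | empty => simpa using (isRedOf_zero : IsRedOf A (0 : LaurentSeries L) 0)
  | insert a s ha ih =>
    rw [Finset.sum_insert ha, Finset.sum_insert ha]
    exact (h a (Finset.mem_insert_self a s)).add
      (ih fun i hi => h i (Finset.mem_insert_of_mem hi))

theorem isRedOf_prod {ι : Type*} (s : Finset ι) (x : ι → LaurentSeries L)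
    (w : ι → LaurentSeries (IsLocalRing.ResidueField A))
    (h : ∀ i ∈ s, IsRedOf A (x i) (w i)) : IsRedOf A (∏ i ∈ s, x i) (∏ i ∈ s, w i) := by
  classical
  induction s using Finset.induction_on with
  | empty => simpa using (isRedOf_one : IsRedOf A (1 : LaurentSeries L) 1)
  | insert a s ha ih =>
    rw [Finset.prod_insert ha, Finset.prod_insert ha]
    exact (h a (Finset.mem_insert_self a s)).mul
      (ih fun i hi => h i (Finset.mem_insert_of_mem hi))

theorem C_residue_mem (Ft : IntermediateField (IsLocalRing.ResidueField A)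
    (LaurentSeries (IsLocalRing.ResidueField A))) (r : IsLocalRing.ResidueField A) :
    HahnSeries.C r ∈ Ft := by
  have h : HahnSeries.C r = algebraMap (IsLocalRing.ResidueField A)
      (LaurentSeries (IsLocalRing.ResidueField A)) r := by
    rw [algebraMap_laurentSeries_eq_single, HahnSeries.C_apply]
  rw [h]
  exact Ft.algebraMap_mem r

theorem C_mem (Fb : IntermediateField L (LaurentSeries L)) (c : L) : HahnSeries.C c ∈ Fb := by
  have h : HahnSeries.C c = algebraMap L (LaurentSeries L) c := by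
    rw [algebraMap_laurentSeries_eq_single, HahnSeries.C_apply]
  rw [h]
  exact Fb.algebraMap_mem c

end Calculus

section Dominant

variable {L : Type*} [Field L] {A : ValuationSubring L}
variable (Fb₁ : IntermediateField L (LaurentSeries L))
variable (Ft₁ : IntermediateField (IsLocalRing.ResidueField A)
  (LaurentSeries (IsLocalRing.ResidueField A)))

/-- **Dominant coefficient lemma.**  If the `b i` have Gauss reductions `wb i` which are linearly
independent over `Ft₁`, and the `c i ∈ Fb₁` are not all zero, then a suitable constant multiple of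
`∑ c i * b i` has a NONZERO Gauss reduction, and the same multiple of every `c i` has a Gauss
reduction in `Ft₁`. -/
theorem exists_dominant
    (H1 : ∀ (x : LaurentSeries L) (w : LaurentSeries (IsLocalRing.ResidueField A)),
      x ∈ Fb₁ → IsRedOf A x w → w ∈ Ft₁)
    (H2 : ∀ f : LaurentSeries L, f ∈ Fb₁ → f ≠ 0 →
      ∃ (c : L) (w : LaurentSeries (IsLocalRing.ResidueField A)), c ≠ 0 ∧ w ≠ 0 ∧
        IsRedOf A (HahnSeries.C c * f) w)
    {ι : Type*} [Fintype ι] (c b : ι → LaurentSeries L)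
    (wb : ι → LaurentSeries (IsLocalRing.ResidueField A))
    (hc : ∀ i, c i ∈ Fb₁) (hb : ∀ i, IsRedOf A (b i) (wb i))
    (hind : ∀ v : ι → LaurentSeries (IsLocalRing.ResidueField A), (∀ i, v i ∈ Ft₁) →
      ∑ i, v i * wb i = 0 → ∀ i, v i = 0)
    (hne : ∃ i, c i ≠ 0) :
    ∃ (γ₀ : L) (ζ : LaurentSeries (IsLocalRing.ResidueField A)), γ₀ ≠ 0 ∧ ζ ≠ 0 ∧
      IsRedOf A (HahnSeries.C γ₀ * ∑ i, c i * b i) ζ ∧
      ∀ i, ∃ v : LaurentSeries (IsLocalRing.ResidueField A), v ∈ Ft₁ ∧
        IsRedOf A (HahnSeries.C γ₀ * c i) v := by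
  classical
  -- normal forms of the nonzero coefficients
  have hex : ∀ i, ∃ (γ : L) (u : LaurentSeries (IsLocalRing.ResidueField A)), γ ≠ 0 ∧
      (c i ≠ 0 → u ≠ 0 ∧ IsRedOf A (HahnSeries.C γ * c i) u) := by
    intro i
    by_cases h : c i = 0
    · exact ⟨1, 0, one_ne_zero, fun h' => absurd h h'⟩
    · obtain ⟨γ, u, hγ, hu, hred⟩ := H2 (c i) (hc i) h
      exact ⟨γ, u, hγ, fun _ => ⟨hu, hred⟩⟩
  choose γ u hγ hu using hex
  set S : Finset ι := Finset.univ.filter fun i => c i ≠ 0 with hS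
  have hSne : S.Nonempty := by
    obtain ⟨i, hi⟩ := hne
    exact ⟨i, by simp [hS, hi]⟩
  obtain ⟨i₀, hi₀S, hmin⟩ := Finset.exists_min_image S (fun i => A.valuation (γ i)) hSne
  have hci₀ : c i₀ ≠ 0 := by simpa [hS] using hi₀S
  -- the ratios `γ i₀ / γ i` lie in `A`
  have hratio : ∀ i ∈ S, γ i₀ * (γ i)⁻¹ ∈ A := by
    intro i hi
    rw [← ValuationSubring.valuation_le_one_iff, map_mul, map_inv₀]
    have h1 := hmin i hi
    have h2 : A.valuation (γ i) ≠ 0 := by
      rw [Ne, map_eq_zero]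
      exact hγ i
    calc A.valuation (γ i₀) * (A.valuation (γ i))⁻¹
        ≤ A.valuation (γ i) * (A.valuation (γ i))⁻¹ := mul_le_mul_left h1 _
      _ = 1 := mul_inv_cancel₀ h2
  -- the residues of the ratios (junk `0` outside `S`)
  set r : ι → IsLocalRing.ResidueField A := fun i =>
    if h : i ∈ S then IsLocalRing.residue A ⟨γ i₀ * (γ i)⁻¹, hratio i h⟩ else 0 with hr
  have hr₀ : r i₀ = 1 := by
    have h1 : (⟨γ i₀ * (γ i₀)⁻¹, hratio i₀ hi₀S⟩ : A) = 1 :=
      Subtype.ext (mul_inv_cancel₀ (hγ i₀))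
    simp only [hr, dif_pos hi₀S, h1, map_one]
  -- the reductions of the scaled coefficients
  set v : ι → LaurentSeries (IsLocalRing.ResidueField A) := fun i =>
    if i ∈ S then HahnSeries.C (r i) * u i else 0 with hv
  have hvred : ∀ i, IsRedOf A (HahnSeries.C (γ i₀) * c i) (v i) := by
    intro i
    by_cases hi : i ∈ S
    · have hci : c i ≠ 0 := by simpa [hS] using hi
      have h1 := (isRedOf_C (A := A) ⟨γ i₀ * (γ i)⁻¹, hratio i hi⟩).mul (hu i hci).2
      have h2 : HahnSeries.C (((⟨γ i₀ * (γ i)⁻¹, hratio i hi⟩ : A) : L)) *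
          (HahnSeries.C (γ i) * c i) = HahnSeries.C (γ i₀) * c i := by
        rw [← mul_assoc, ← map_mul]
        congr 2
        show γ i₀ * (γ i)⁻¹ * γ i = γ i₀
        rw [mul_assoc, inv_mul_cancel₀ (hγ i), mul_one]
      rw [h2] at h1
      have h3 : v i = HahnSeries.C (IsLocalRing.residue A ⟨γ i₀ * (γ i)⁻¹, hratio i hi⟩) * u i := by
        simp only [hv, if_pos hi, hr, dif_pos hi]
      rw [h3]
      exact h1
    · have hci : c i = 0 := by
        by_contra h
        exact hi (by simp [hS, h])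
      have h3 : v i = 0 := by simp only [hv, if_neg hi]
      rw [hci, mul_zero, h3]
      exact isRedOf_zero
  have hvmem : ∀ i, v i ∈ Ft₁ := fun i =>
    H1 _ _ (mul_mem (C_mem Fb₁ _) (hc i)) (hvred i)
  have hv₀ : v i₀ ≠ 0 := by
    have h3 : v i₀ = HahnSeries.C (r i₀) * u i₀ := by simp only [hv, if_pos hi₀S]
    rw [h3, hr₀, map_one, one_mul]
    exact (hu i₀ hci₀).1
  refine ⟨γ i₀, ∑ i, v i * wb i, hγ i₀, ?_, ?_, fun i => ⟨v i, hvmem i, hvred i⟩⟩
  · intro h0
    exact hv₀ (hind v hvmem h0 i₀)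
  · have h1 : HahnSeries.C (γ i₀) * ∑ i, c i * b i = ∑ i, (HahnSeries.C (γ i₀) * c i) * b i := by
      rw [Finset.mul_sum]
      exact Finset.sum_congr rfl fun i _ => (mul_assoc _ _ _).symm
    rw [h1]
    exact isRedOf_sum _ _ _ fun i _ => (hvred i).mul (hb i)

/-- Lifts of `Ft₁`-independent reductions are `Fb₁`-independent. -/
theorem eq_zero_of_sum_eq_zero
    (H1 : ∀ (x : LaurentSeries L) (w : LaurentSeries (IsLocalRing.ResidueField A)),
      x ∈ Fb₁ → IsRedOf A x w → w ∈ Ft₁)
    (H2 : ∀ f : LaurentSeries L, f ∈ Fb₁ → f ≠ 0 →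
      ∃ (c : L) (w : LaurentSeries (IsLocalRing.ResidueField A)), c ≠ 0 ∧ w ≠ 0 ∧
        IsRedOf A (HahnSeries.C c * f) w)
    {ι : Type*} [Fintype ι] (c b : ι → LaurentSeries L)
    (wb : ι → LaurentSeries (IsLocalRing.ResidueField A))
    (hc : ∀ i, c i ∈ Fb₁) (hb : ∀ i, IsRedOf A (b i) (wb i))
    (hind : ∀ v : ι → LaurentSeries (IsLocalRing.ResidueField A), (∀ i, v i ∈ Ft₁) →
      ∑ i, v i * wb i = 0 → ∀ i, v i = 0)
    (hsum : ∑ i, c i * b i = 0) : ∀ i, c i = 0 := by
  by_contra hne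
  push Not at hne
  obtain ⟨γ₀, ζ, -, hζ, hred, -⟩ := exists_dominant Fb₁ Ft₁ H1 H2 c b wb hc hb hind hne
  rw [hsum, mul_zero] at hred
  exact hζ (isRedOf_eq_zero hred)

/-- If `∑ c i * b i` has a Gauss reduction, so has every coefficient `c i`. -/
theorem exists_isRedOf_coeff
    (H1 : ∀ (x : LaurentSeries L) (w : LaurentSeries (IsLocalRing.ResidueField A)),
      x ∈ Fb₁ → IsRedOf A x w → w ∈ Ft₁)
    (H2 : ∀ f : LaurentSeries L, f ∈ Fb₁ → f ≠ 0 →
      ∃ (c : L) (w : LaurentSeries (IsLocalRing.ResidueField A)), c ≠ 0 ∧ w ≠ 0 ∧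
        IsRedOf A (HahnSeries.C c * f) w)
    {ι : Type*} [Fintype ι] (c b : ι → LaurentSeries L)
    (wb : ι → LaurentSeries (IsLocalRing.ResidueField A))
    (hc : ∀ i, c i ∈ Fb₁) (hb : ∀ i, IsRedOf A (b i) (wb i))
    (hind : ∀ v : ι → LaurentSeries (IsLocalRing.ResidueField A), (∀ i, v i ∈ Ft₁) →
      ∑ i, v i * wb i = 0 → ∀ i, v i = 0)
    (wz : LaurentSeries (IsLocalRing.ResidueField A))
    (hz : IsRedOf A (∑ i, c i * b i) wz) :
    ∀ i, ∃ v : LaurentSeries (IsLocalRing.ResidueField A), v ∈ Ft₁ ∧ IsRedOf A (c i) v := by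
  by_cases hne : ∃ i, c i ≠ 0
  · obtain ⟨γ₀, ζ, hγ₀, hζ, hred, hv⟩ := exists_dominant Fb₁ Ft₁ H1 H2 c b wb hc hb hind hne
    -- `γ₀⁻¹ ∈ A`
    have hinv : γ₀⁻¹ ∈ A := by
      rcases A.mem_or_inv_mem γ₀ with h | h
      · by_contra hn
        -- `γ₀` is a nonunit of `A`
        have hres : IsLocalRing.residue A ⟨γ₀, h⟩ = 0 := by
          rw [IsLocalRing.residue_eq_zero_iff, ValuationSubring.valuation_lt_one_iff]
          have h1 : A.valuation γ₀ ≤ 1 := (A.valuation_le_one_iff γ₀).mpr h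
          refine lt_of_le_of_ne h1 fun h2 => hn ?_
          rw [← ValuationSubring.valuation_le_one_iff, map_inv₀, h2, inv_one]
        have h3 := (isRedOf_C (A := A) ⟨γ₀, h⟩).mul hz
        rw [hres, map_zero, zero_mul] at h3
        exact hζ (hred.unique h3)
      · exact h
    intro i
    obtain ⟨v, hvmem, hvred⟩ := hv i
    refine ⟨HahnSeries.C (IsLocalRing.residue A ⟨γ₀⁻¹, hinv⟩) * v,
      mul_mem (C_residue_mem Ft₁ _) hvmem, ?_⟩
    have h1 := (isRedOf_C (A := A) ⟨γ₀⁻¹, hinv⟩).mul hvred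
    have h2 : HahnSeries.C (((⟨γ₀⁻¹, hinv⟩ : A) : L)) * (HahnSeries.C γ₀ * c i) = c i := by
      rw [← mul_assoc, ← map_mul]
      show HahnSeries.C (γ₀⁻¹ * γ₀) * c i = c i
      rw [inv_mul_cancel₀ hγ₀, map_one, one_mul]
    rwa [h2] at h1
  · push Not at hne
    intro i
    exact ⟨0, zero_mem _, by rw [hne i]; exact isRedOf_zero⟩

end Dominant

end Fermat.Agent.S18.RED3869
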